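import Fermat.Agent.S25.H10.CechDefs

/-!
# S25 / block CECH / leaf K2: twisting kills `H¹`

In the operator language of `Fermat.Agent.S25.H10.CechDefs`:

* `H1_finite` (K2a): if `N0` is finitely generated over `A[X]` (`IsFG D.X0`), then every twisted
  Čech `H¹(L(m∞)) = N01 ⧸ range (d m)` is a finitely generated `A`-module;
* `exists_forall_d_surjective` (K2): for `m` large the twisted differential `d m` is surjective;
* `exists_finset_span_sup_range_d_eq_top` : the uniform statement behind both: there is `m0`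
  such that for every `m` the module `N01` is spanned by `range (d m)` and the finitely many
  elements `T⁻ˡ (r0 e)`, `e` in a fixed finite set, `l < m0 - m`.
-/

set_option autoImplicit false

namespace Fermat.Agent.S25.H550

open Fermat.Agent.S25.H10 Submodule

universe u v

variable {A : Type u} [CommRing A] {N0 N1 N01 : Type v}
  [AddCommGroup N0] [AddCommGroup N1] [AddCommGroup N01]
  [Module A N0] [Module A N1] [Module A N01]

/-- `range (d m) = range r0 ⊔ range (T ^ m ∘ r1)`. -/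
theorem range_d_eq (D : CechOps A N0 N1 N01) (m : ℕ) :
    LinearMap.range (D.d m) = LinearMap.range D.r0 ⊔ LinearMap.range ((D.T ^ m) ∘ₗ D.r1) := by
  unfold CechOps.d
  rw [LinearMap.range_coprod, LinearMap.range_neg]

theorem r0_mem_range_d (D : CechOps A N0 N1 N01) (m : ℕ) (n : N0) :
    D.r0 n ∈ LinearMap.range (D.d m) :=
  ⟨(n, 0), by simp⟩

theorem T_pow_r1_mem_range_d (D : CechOps A N0 N1 N01) (m : ℕ) (n : N1) :
    (D.T ^ m) (D.r1 n) ∈ LinearMap.range (D.d m) :=
  ⟨(0, -n), by simp⟩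

/-- `Tinv ^ j (T ^ (j + i) z) = T ^ i z`. -/
theorem Tinv_pow_T_pow_add (D : CechOps A N0 N1 N01) (j i : ℕ) (z : N01) :
    (D.Tinv ^ j) ((D.T ^ (j + i)) z) = (D.T ^ i) z := by
  rw [pow_add, Module.End.mul_apply, D.Tinv_pow_T_pow_apply]

/-- `T ^ j (Tinv ^ (j + i) z) = Tinv ^ i z`. -/
theorem T_pow_Tinv_pow_add (D : CechOps A N0 N1 N01) (j i : ℕ) (z : N01) :
    (D.T ^ j) ((D.Tinv ^ (j + i)) z) = (D.Tinv ^ i) z := by
  rw [pow_add, Module.End.mul_apply, D.T_pow_Tinv_pow_apply]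

/-- `Tinv ^ (i + l) (T ^ i z) = Tinv ^ l z`. -/
theorem Tinv_pow_add_T_pow (D : CechOps A N0 N1 N01) (i l : ℕ) (z : N01) :
    (D.Tinv ^ (i + l)) ((D.T ^ i) z) = (D.Tinv ^ l) z := by
  rw [add_comm, pow_add, Module.End.mul_apply, D.Tinv_pow_T_pow_apply]

/-- If `Tinv ^ k z ∈ range r1` and `k ≤ m + j`, then `Tinv ^ j z ∈ range (d m)`. -/
theorem Tinv_pow_mem_range_d (D : CechOps A N0 N1 N01) {z : N01} {k : ℕ} {n : N1}
    (hk : (D.Tinv ^ k) z = D.r1 n) {m j : ℕ} (hkm : k ≤ m + j) :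
    (D.Tinv ^ j) z ∈ LinearMap.range (D.d m) := by
  obtain ⟨i, hi⟩ := Nat.exists_eq_add_of_le hkm
  -- `Tinv ^ (m + j) z = Tinv ^ i (Tinv ^ k z) = r1 (Y1 ^ i n)`
  have h1 : (D.Tinv ^ (m + j)) z = D.r1 ((D.Y1 ^ i) n) := by
    rw [D.r1_Y1_pow, ← hk, ← Module.End.mul_apply, ← pow_add, hi, add_comm]
  have h2 : (D.Tinv ^ j) z = (D.T ^ m) (D.r1 ((D.Y1 ^ i) n)) := by
    rw [← h1, T_pow_Tinv_pow_add]
  rw [h2]
  exact T_pow_r1_mem_range_d D m _

/-- The uniform statement behind K2: there is `m0` such that for every `m` there is a finite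
set `G` (empty as soon as `m0 ≤ m`) which together with `range (d m)` spans `N01`. -/
theorem exists_finset_span_sup_range_d_eq_top (D : CechOps A N0 N1 N01) (h0 : IsFG D.X0) :
    ∃ m0 : ℕ, ∀ m : ℕ, ∃ G : Finset N01, (m0 ≤ m → G = ∅) ∧
      span A (G : Set N01) ⊔ LinearMap.range (D.d m) = ⊤ := by
  classical
  obtain ⟨S0, hS0⟩ := h0
  have hch : ∀ s : N0, ∃ (k : ℕ) (n : N1), (D.Tinv ^ k) (D.r0 s) = D.r1 n :=
    fun s => D.loc1 (D.r0 s)
  choose ks ns hks using hch
  refine ⟨S0.sup ks, fun m => ?_⟩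
  set G : Finset N01 :=
    (S0 ×ˢ Finset.range (S0.sup ks - m)).image (fun q => (D.Tinv ^ q.2) (D.r0 q.1)) with hG
  refine ⟨G, fun hm => ?_, ?_⟩
  · rw [hG, Nat.sub_eq_zero_of_le hm, Finset.range_zero, Finset.product_empty,
      Finset.image_empty]
  set P : Submodule A N01 := span A (G : Set N01) ⊔ LinearMap.range (D.d m) with hP
  have key : ∀ e ∈ S0, ∀ i j : ℕ, (D.Tinv ^ j) ((D.T ^ i) (D.r0 e)) ∈ P := by
    intro e he i j
    rcases le_or_gt j i with hji | hji
    · obtain ⟨l, rfl⟩ := Nat.exists_eq_add_of_le hji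
      rw [Tinv_pow_T_pow_add, ← D.r0_X0_pow]
      exact mem_sup_right (r0_mem_range_d D m _)
    · obtain ⟨l, rfl⟩ := Nat.exists_eq_add_of_le hji.le
      rw [Tinv_pow_add_T_pow]
      by_cases hl : l < S0.sup ks - m
      · refine mem_sup_left (subset_span ?_)
        simp only [hG, Finset.coe_image, Set.mem_image, Finset.mem_coe, Finset.mem_product,
          Finset.mem_range]
        exact ⟨(e, l), ⟨he, hl⟩, rfl⟩
      · have hke : ks e ≤ m + l := by
          have := Finset.le_sup (f := ks) he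
          omega
        exact mem_sup_right (Tinv_pow_mem_range_d D (hks e) hke)
  have gen : ∀ (k : ℕ) (n : N0), (D.Tinv ^ k) (D.r0 n) ∈ P := by
    intro k n
    have hn := hS0 n
    induction hn using Submodule.span_induction with
    | mem n hn =>
      obtain ⟨e, he, i, rfl⟩ := hn
      rw [D.r0_X0_pow]
      exact key e he i k
    | zero => simp
    | add a b _ _ ha hb =>
      rw [map_add, map_add]
      exact add_mem ha hb
    | smul c a _ ha =>
      rw [map_smul, map_smul]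
      exact smul_mem _ c ha
  rw [eq_top_iff]
  intro z _
  obtain ⟨k, n, hz⟩ := D.loc0 z
  have hz' : z = (D.Tinv ^ k) (D.r0 n) := by
    rw [← hz, D.Tinv_pow_T_pow_apply]
  rw [hz']
  exact gen k n

/-- **K2a** (= E1 in operator language). Every twisted Čech `H¹` is a finitely generated
`A`-module. -/
theorem H1_finite (D : CechOps A N0 N1 N01) (h0 : IsFG D.X0) (m : ℕ) :
    Module.Finite A (D.H1 m) := by
  classical
  obtain ⟨m0, hm0⟩ := exists_finset_span_sup_range_d_eq_top D h0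
  obtain ⟨G, -, htop⟩ := hm0 m
  refine ⟨⟨G.image (mkQ (LinearMap.range (D.d m))), ?_⟩⟩
  rw [Finset.coe_image, ← Submodule.map_span, eq_top_iff]
  rintro y -
  obtain ⟨z, rfl⟩ := mkQ_surjective (LinearMap.range (D.d m)) y
  have hzmem : z ∈ span A (G : Set N01) ⊔ LinearMap.range (D.d m) := by rw [htop]; trivial
  obtain ⟨g, hg, q, hq, rfl⟩ := mem_sup.mp hzmem
  refine ⟨g, hg, ?_⟩
  rw [map_add, Submodule.mkQ_apply _ q, (Submodule.Quotient.mk_eq_zero _).mpr hq, add_zero]

/-- **K2.** For `m` large the twisted differential is surjective. -/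
theorem exists_forall_d_surjective (D : CechOps A N0 N1 N01) (h0 : IsFG D.X0) :
    ∃ m0 : ℕ, ∀ m, m0 ≤ m → Function.Surjective (D.d m) := by
  obtain ⟨m0, hm0⟩ := exists_finset_span_sup_range_d_eq_top D h0
  refine ⟨m0, fun m hm => ?_⟩
  obtain ⟨G, hG, htop⟩ := hm0 m
  rw [hG hm, Finset.coe_empty, span_empty, bot_sup_eq] at htop
  exact LinearMap.range_eq_top.mp htop

/-- Variant of K2: `H¹(L(m∞)) = 0` for `m` large. -/
theorem exists_forall_subsingleton_H1 (D : CechOps A N0 N1 N01) (h0 : IsFG D.X0) :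
    ∃ m0 : ℕ, ∀ m, m0 ≤ m → Subsingleton (D.H1 m) := by
  obtain ⟨m0, hm0⟩ := exists_forall_d_surjective D h0
  refine ⟨m0, fun m hm => ?_⟩
  have : LinearMap.range (D.d m) = ⊤ := LinearMap.range_eq_top.mpr (hm0 m hm)
  exact (Submodule.Quotient.subsingleton_iff).mpr (by rw [this])

end Fermat.Agent.S25.H550
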