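import Fermat.Agent.S25.DefsAlg

/-!
# S25 / block DEGREE: a base change of gluing data is an `A`-linear base change

For `φ : A →ₐ[k] A'` and gluing data `G` over `A`, `G'` over `A'` with `CurveGD.IsBC φ G G'`,
the semilinear maps `b₀, b₁, b₀₁` exhibit `G'.Nᵢ` as `A' ⊗[A] G.Nᵢ` (because
`A' ⊗[k] B = A' ⊗[A] (A ⊗[k] B)`), compatibly with the Čech differentials.  Hence

* `nonempty_H0_equiv` : `G'.H0 ≃ₗ[A'] ker (A' ⊗ G.cech)`,
* `nonempty_H1_equiv` : `G'.H1 ≃ₗ[A'] coker (A' ⊗ G.cech)`.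

All statements take `[Algebra A A']` together with `hφ : ∀ a, φ a = algebraMap A A' a`.
-/

set_option autoImplicit false
set_option linter.style.haveILetI false

namespace Fermat.Agent.S25.H550

open scoped TensorProduct
open Fermat.Agent.S25

universe u

section Generic

variable {A A' : Type u} [CommRing A] [CommRing A'] [Algebra A A']
  {R R' : Type u} [CommRing R] [CommRing R'] [Algebra A R] [Algebra A' R']

/-- A semilinear base change along `ρ : R → R'`, where `R' = A' ⊗[A] R`, is an `A`-linear base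
change along `A → A'`. -/
theorem exists_equiv_of_isSemilinearBaseChange (ρ : R →+* R')
    (hρ : ∀ a : A, ρ (algebraMap A R a) = algebraMap A' R' (algebraMap A A' a))
    (e : A' ⊗[A] R ≃ₗ[A'] R') (he : ∀ r : R, e (1 ⊗ₜ[A] r) = ρ r)
    {N N' : Type u} [AddCommGroup N] [Module R N] [Module A N] [IsScalarTower A R N]
    [AddCommGroup N'] [Module R' N'] [Module A' N'] [IsScalarTower A' R' N']
    (b : N →ₛₗ[ρ] N') (hb : IsSemilinearBaseChange ρ b) :
    ∃ E : A' ⊗[A] N ≃ₗ[A'] N', ∀ (s : A') (n : N), E (s ⊗ₜ[A] n) = s • b n := by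
  letI algRR' : Algebra R R' := ρ.toAlgebra
  letI algAR' : Algebra A R' := ((algebraMap A' R').comp (algebraMap A A')).toAlgebra
  haveI t1 : IsScalarTower A A' R' := IsScalarTower.of_algebraMap_eq (fun _ => rfl)
  haveI t2 : IsScalarTower A R R' := IsScalarTower.of_algebraMap_eq (fun a => (hρ a).symm)
  haveI push : Algebra.IsPushout A A' R R' := by
    rw [Algebra.isPushout_iff]
    exact IsBaseChange.of_equiv e (fun r => he r)
  letI modRN' : Module R N' := Module.compHom N' ρ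
  haveI t3 : IsScalarTower R R' N' := ⟨fun r r' n => by
    change (ρ r * r') • n = ρ r • (r' • n); rw [mul_smul]⟩
  have hb' : IsBaseChange R' (show N →ₗ[R] N' from
    { toFun := fun n => b n
      map_add' := fun m n => b.map_add m n
      map_smul' := fun r n => LinearMap.map_smulₛₗ b r n }) := hb
  let c : R' ⊗[R] N ≃ₗ[A'] A' ⊗[A] N := Algebra.IsPushout.cancelBaseChange A A' R R' N
  refine ⟨c.symm ≪≫ₗ (hb'.equiv.restrictScalars A'), fun s n => ?_⟩
  rw [LinearEquiv.trans_apply, Algebra.IsPushout.cancelBaseChange_symm_tmul]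
  show hb'.equiv (algebraMap A' R' s ⊗ₜ[R] n) = s • b n
  rw [IsBaseChange.equiv_tmul, algebraMap_smul]
  rfl

end Generic

section Tensor

variable {k : Type u} [Field k] {A A' : Type u} [CommRing A] [Algebra k A] [CommRing A']
  [Algebra k A'] [Algebra A A'] [IsScalarTower k A A']

/-- `A' ⊗[k] B = A' ⊗[A] (A ⊗[k] B)`, in the form needed above. -/
theorem exists_equiv_tensorMapLeft (φ : A →ₐ[k] A') (hφ : ∀ a, φ a = algebraMap A A' a)
    (B : Type u) [CommRing B] [Algebra k B] :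
    ∃ e : A' ⊗[A] (A ⊗[k] B) ≃ₗ[A'] A' ⊗[k] B,
      ∀ r : A ⊗[k] B, e (1 ⊗ₜ[A] r) = tensorMapLeft k φ B r := by
  refine ⟨(Algebra.TensorProduct.cancelBaseChange k A A' A' B).toLinearEquiv, fun r => ?_⟩
  induction r using TensorProduct.induction_on with
  | zero => simp
  | tmul a b =>
    show Algebra.TensorProduct.cancelBaseChange k A A' A' B (1 ⊗ₜ[A] (a ⊗ₜ[k] b)) = _
    rw [Algebra.TensorProduct.cancelBaseChange_tmul]
    show (a • (1 : A')) ⊗ₜ[k] b = (Algebra.TensorProduct.map φ (AlgHom.id k B)) (a ⊗ₜ[k] b)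
    rw [Algebra.TensorProduct.map_tmul, hφ, Algebra.smul_def, mul_one]
    rfl
  | add x y hx hy =>
    rw [TensorProduct.tmul_add, map_add, map_add, hx, hy]

omit [IsScalarTower k A A'] in
theorem tensorMapLeft_algebraMap (φ : A →ₐ[k] A') (hφ : ∀ a, φ a = algebraMap A A' a)
    (B : Type u) [CommRing B] [Algebra k B] (a : A) :
    tensorMapLeft k φ B (algebraMap A (A ⊗[k] B) a) =
      algebraMap A' (A' ⊗[k] B) (algebraMap A A' a) := by
  show (Algebra.TensorProduct.map φ (AlgHom.id k B)) (a ⊗ₜ[k] (1 : B)) = _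
  rw [Algebra.TensorProduct.map_tmul, hφ]
  rfl

/-- A semilinear base change along `tensorMapLeft k φ B` is an `A`-linear base change. -/
theorem exists_equiv_of_isSemilinearBaseChange_tensor (φ : A →ₐ[k] A')
    (hφ : ∀ a, φ a = algebraMap A A' a) (B : Type u) [CommRing B] [Algebra k B]
    {N N' : Type u} [AddCommGroup N] [Module (A ⊗[k] B) N] [Module A N]
    [IsScalarTower A (A ⊗[k] B) N]
    [AddCommGroup N'] [Module (A' ⊗[k] B) N'] [Module A' N'] [IsScalarTower A' (A' ⊗[k] B) N']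
    (b : N →ₛₗ[tensorMapLeft k φ B] N') (hb : IsSemilinearBaseChange (tensorMapLeft k φ B) b) :
    ∃ E : A' ⊗[A] N ≃ₗ[A'] N', ∀ (s : A') (n : N), E (s ⊗ₜ[A] n) = s • b n := by
  obtain ⟨e, he⟩ := exists_equiv_tensorMapLeft φ hφ B
  exact exists_equiv_of_isSemilinearBaseChange (tensorMapLeft k φ B)
    (tensorMapLeft_algebraMap φ hφ B) e he b hb

end Tensor

section Cech

variable {k : Type u} [Field k] {B₀ B₁ B₀₁ : Type u} [CommRing B₀] [CommRing B₁] [CommRing B₀₁]
  [Algebra k B₀] [Algebra k B₁] [Algebra k B₀₁] [Algebra B₀ B₀₁] [Algebra B₁ B₀₁]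
  [IsScalarTower k B₀ B₀₁] [IsScalarTower k B₁ B₀₁]
  {A A' : Type u} [CommRing A] [Algebra k A] [CommRing A'] [Algebra k A'] [Algebra A A']
  [IsScalarTower k A A']

/-- The Čech differential of a base change is the base change of the Čech differential. -/
theorem exists_cech_baseChange_equiv (φ : A →ₐ[k] A') (hφ : ∀ a, φ a = algebraMap A A' a)
    (G : CurveGD k B₀ B₁ B₀₁ A) (G' : CurveGD k B₀ B₁ B₀₁ A') (h : CurveGD.IsBC φ G G') :
    ∃ (E : A' ⊗[A] (G.N₀ × G.N₁) ≃ₗ[A'] (G'.N₀ × G'.N₁))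
      (E₀₁ : A' ⊗[A] G.N₀₁ ≃ₗ[A'] G'.N₀₁),
      ∀ t, E₀₁ (G.cech.baseChange A' t) = G'.cech (E t) := by
  obtain ⟨bc⟩ := h
  obtain ⟨E₀, hE₀⟩ := exists_equiv_of_isSemilinearBaseChange_tensor φ hφ B₀ bc.b₀ bc.isBaseChange₀
  obtain ⟨E₁, hE₁⟩ := exists_equiv_of_isSemilinearBaseChange_tensor φ hφ B₁ bc.b₁ bc.isBaseChange₁
  obtain ⟨E₀₁, hE₀₁⟩ :=
    exists_equiv_of_isSemilinearBaseChange_tensor φ hφ B₀₁ bc.b₀₁ bc.isBaseChange₀₁
  refine ⟨(TensorProduct.prodRight A A' A' G.N₀ G.N₁).trans (E₀.prodCongr E₁), E₀₁, fun t => ?_⟩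
  induction t using TensorProduct.induction_on with
  | zero => rw [map_zero, map_zero, map_zero, map_zero]
  | tmul s p =>
    obtain ⟨n₀, n₁⟩ := p
    rw [LinearMap.baseChange_tmul, hE₀₁, LinearEquiv.trans_apply, TensorProduct.prodRight_tmul]
    show s • bc.b₀₁ (G.cech (n₀, n₁)) = G'.cech (E₀ (s ⊗ₜ[A] n₀), E₁ (s ⊗ₜ[A] n₁))
    rw [hE₀, hE₁]
    simp only [GlueDatum.cech, LinearMap.coprod_apply, LinearMap.neg_apply,
      LinearMap.coe_restrictScalars, map_add, map_neg, bc.comm₀, bc.comm₁, smul_add, smul_neg]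
    rw [← algebraMap_smul (A' ⊗[k] B₀) s (bc.b₀ n₀), ← algebraMap_smul (A' ⊗[k] B₁) s (bc.b₁ n₁),
      map_smul, map_smul, algebraMap_smul, algebraMap_smul]
  | add x y hx hy => simp only [map_add, hx, hy]

end Cech

end Fermat.Agent.S25.H550
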