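import Fermat.Agent.S25.H10.CechDefs

/-!
# S25 / block CECH / leaf K1a: the degree bound

`exists_fg_ge_H0` : for a two-chart Čech datum whose charts are retracts of `A[X]^n` (`IsFGProj`)
with injective restriction maps, every twisted `H⁰(L(m∞)) = ker (d m)` is contained in a
finitely generated `A`-submodule of `N0 × N1`.

The engine is `degree_bound_half` (one chart at a time, symmetric in the two charts):
there is `d` such that `r a = S ^ m (r' b)` forces all coordinates of `ι a` to have degree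
`≤ m + d`.
-/

set_option autoImplicit false

namespace Fermat.Agent.S25.H550

open Polynomial Fermat.Agent.S25.H10

universe u v

variable {A : Type u} [CommRing A]

/-- Vectors of polynomials all of whose coordinates have degree `≤ d`. -/
noncomputable def polyLE (A : Type u) [CommRing A] (n d : ℕ) : Submodule A (Fin n → A[X]) :=
  Submodule.pi Set.univ (fun _ => Polynomial.degreeLE A (d : WithBot ℕ))

theorem mem_polyLE {n d : ℕ} {w : Fin n → A[X]} :
    w ∈ polyLE A n d ↔ ∀ i, (w i).degree ≤ d := by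
  simp [polyLE, Submodule.mem_pi, Polynomial.mem_degreeLE]

theorem mem_polyLE_iff_coeff {n d : ℕ} {w : Fin n → A[X]} :
    w ∈ polyLE A n d ↔ ∀ i, ∀ k : ℕ, d < k → (w i).coeff k = 0 := by
  rw [mem_polyLE]
  refine forall_congr' fun i => ?_
  rw [Polynomial.degree_le_iff_coeff_zero]
  exact forall_congr' fun k => by rw [Nat.cast_lt]

theorem polyLE_mono {n d d' : ℕ} (h : d ≤ d') : polyLE A n d ≤ polyLE A n d' := by
  intro w hw
  rw [mem_polyLE] at hw ⊢
  exact fun i => le_trans (hw i) (by exact_mod_cast h)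

theorem polyLE_fg (n d : ℕ) : (polyLE A n d).FG := by
  classical
  refine Submodule.fg_pi fun i => ?_
  rw [Polynomial.degreeLE_eq_span_X_pow]
  exact Submodule.fg_span (Finset.finite_toSet _)

theorem exists_mem_polyLE {n : ℕ} (w : Fin n → A[X]) : ∃ e : ℕ, w ∈ polyLE A n e := by
  refine ⟨Finset.univ.sup fun i => (w i).natDegree, ?_⟩
  rw [mem_polyLE]
  intro i
  refine le_trans Polynomial.degree_le_natDegree ?_
  exact_mod_cast Finset.le_sup (f := fun i => (w i).natDegree) (Finset.mem_univ i)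

theorem X_pow_smul_mem_polyLE {n d : ℕ} {w : Fin n → A[X]} (hw : w ∈ polyLE A n d) (i : ℕ) :
    (X : A[X]) ^ i • w ∈ polyLE A n (d + i) := by
  rw [mem_polyLE_iff_coeff] at hw ⊢
  intro j k hk
  obtain ⟨l, rfl⟩ := Nat.exists_eq_add_of_le (show i ≤ k by omega)
  rw [Pi.smul_apply, smul_eq_mul, add_comm i l, Polynomial.coeff_X_pow_mul]
  exact hw j l (by omega)

theorem mem_polyLE_of_X_pow_smul_mem {n d : ℕ} {w : Fin n → A[X]} (i : ℕ)
    (hw : (X : A[X]) ^ i • w ∈ polyLE A n (d + i)) : w ∈ polyLE A n d := by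
  rw [mem_polyLE_iff_coeff] at hw ⊢
  intro j k hk
  have := hw j (k + i) (by omega)
  rwa [Pi.smul_apply, smul_eq_mul, Polynomial.coeff_X_pow_mul] at this

section Half

variable {N N' N01 : Type v} [AddCommGroup N] [AddCommGroup N'] [AddCommGroup N01]
  [Module A N] [Module A N'] [Module A N01]

theorem pow_apply_of_semiconj {M M' : Type v} [AddCommGroup M] [AddCommGroup M']
    [Module A M] [Module A M'] (E : Module.End A M) (S : Module.End A M') (r : M →ₗ[A] M')
    (hr : ∀ v, r (E v) = S (r v)) (i : ℕ) (v : M) : r ((E ^ i) v) = (S ^ i) (r v) := by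
  induction i generalizing v with
  | zero => simp
  | succ i ih => rw [pow_succ', Module.End.mul_apply, hr, ih, pow_succ', Module.End.mul_apply]

theorem iota_pow_apply (E : Module.End A N) {n : ℕ} (ι : N →ₗ[A] (Fin n → A[X]))
    (hι : ∀ v, ι (E v) = (X : A[X]) • ι v) (i : ℕ) (v : N) :
    ι ((E ^ i) v) = (X : A[X]) ^ i • ι v := by
  induction i generalizing v with
  | zero => simp
  | succ i ih => rw [pow_succ', Module.End.mul_apply, hι, ih, pow_succ', mul_smul]

theorem pi_pow_apply (E : Module.End A N) {n : ℕ} (π : (Fin n → A[X]) →ₗ[A] N)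
    (hπ : ∀ w, π ((X : A[X]) • w) = E (π w)) (i : ℕ) (w : Fin n → A[X]) :
    π ((X : A[X]) ^ i • w) = (E ^ i) (π w) := by
  induction i generalizing w with
  | zero => simp
  | succ i ih => rw [pow_succ', mul_smul, hπ, ih, pow_succ', Module.End.mul_apply]

/-- **Degree bound, one chart.** -/
theorem degree_bound_half
    (E : Module.End A N) (E' : Module.End A N') (S Sinv : Module.End A N01)
    (r : N →ₗ[A] N01) (r' : N' →ₗ[A] N01)
    (hSS : S * Sinv = 1) (hSS' : Sinv * S = 1)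
    (hr : ∀ v, r (E v) = S (r v)) (hr' : ∀ v, r' (E' v) = Sinv (r' v))
    (loc : ∀ z : N01, ∃ (k : ℕ) (v : N), (S ^ k) z = r v) (hinj : Function.Injective r)
    {n : ℕ} (ι : N →ₗ[A] (Fin n → A[X])) (hι : ∀ v, ι (E v) = (X : A[X]) • ι v)
    {n' : ℕ} (ι' : N' →ₗ[A] (Fin n' → A[X])) (π' : (Fin n' → A[X]) →ₗ[A] N')
    (hπι' : π' ∘ₗ ι' = LinearMap.id) (hπ' : ∀ w, π' ((X : A[X]) • w) = E' (π' w)) :
    ∃ d : ℕ, ∀ (m : ℕ) (a : N) (b : N'), r a = (S ^ m) (r' b) → ι a ∈ polyLE A n (m + d) := by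
  classical
  have hcomm : Commute S Sinv := by
    show S * Sinv = Sinv * S
    rw [hSS, hSS']
  have hSpow : ∀ (i : ℕ) (z : N01), (S ^ i) ((Sinv ^ i) z) = z := by
    intro i z
    rw [← Module.End.mul_apply, ← hcomm.mul_pow, hSS, one_pow, Module.End.one_apply]
  -- generators of `N'` and their images in the other chart
  let g : Fin n' → N' := fun j => π' (Pi.single j 1)
  have hloc : ∀ j, ∃ (k : ℕ) (v : N), (S ^ k) (r' (g j)) = r v := fun j => loc _
  choose ks vs hks using hloc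
  let K : ℕ := Finset.univ.sup ks
  let ns : Fin n' → N := fun j => (E ^ (K - ks j)) (vs j)
  have hns : ∀ j, (S ^ K) (r' (g j)) = r (ns j) := by
    intro j
    have hk : ks j ≤ K := Finset.le_sup (f := ks) (Finset.mem_univ j)
    show _ = r ((E ^ (K - ks j)) (vs j))
    rw [pow_apply_of_semiconj E S r hr, ← hks j, ← Module.End.mul_apply, ← pow_add,
      Nat.sub_add_cancel hk]
  have hdeg : ∀ j, ∃ e : ℕ, ι (ns j) ∈ polyLE A n e := fun j => exists_mem_polyLE _
  choose ds hds using hdeg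
  let D : ℕ := Finset.univ.sup ds
  have hD : ∀ j, ι (ns j) ∈ polyLE A n D := fun j =>
    polyLE_mono (Finset.le_sup (f := ds) (Finset.mem_univ j)) (hds j)
  refine ⟨D, fun m a b hab => ?_⟩
  -- Claim A
  have claimA : ∀ (e : ℕ) (w' : Fin n' → A[X]), w' ∈ polyLE A n' e →
      ∃ w : N, ι w ∈ polyLE A n (e + D) ∧ (S ^ (K + e)) (r' (π' w')) = r w := by
    intro e w' hw'
    let Q : Submodule A (Fin n' → A[X]) :=
      Submodule.comap ((S ^ (K + e)) ∘ₗ r' ∘ₗ π')
        (Submodule.map r (Submodule.comap ι (polyLE A n (e + D))))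
    have hQ : ∀ w'', w'' ∈ Q ↔
        ∃ w : N, ι w ∈ polyLE A n (e + D) ∧ (S ^ (K + e)) (r' (π' w'')) = r w := by
      intro w''
      simp only [Q, Submodule.mem_comap, Submodule.mem_map, LinearMap.coe_comp,
        Function.comp_apply]
      constructor
      · rintro ⟨w, hw, hw2⟩
        exact ⟨w, hw, hw2.symm⟩
      · rintro ⟨w, hw, hw2⟩
        exact ⟨w, hw, hw2.symm⟩
    have hgen : ∀ (j : Fin n') (i : ℕ), i ≤ e → Pi.single j ((X : A[X]) ^ i) ∈ Q := by
      intro j i hi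
      rw [hQ]
      refine ⟨(E ^ (e - i)) (ns j), ?_, ?_⟩
      · rw [iota_pow_apply E ι hι]
        refine polyLE_mono ?_ (X_pow_smul_mem_polyLE (hD j) (e - i))
        omega
      · have h1 : (Pi.single j ((X : A[X]) ^ i) : Fin n' → A[X]) =
            (X : A[X]) ^ i • Pi.single j 1 := by
          rw [← Pi.single_smul, smul_eq_mul, mul_one]
        rw [h1, pi_pow_apply E' π' hπ', pow_apply_of_semiconj E' Sinv r' hr',
          pow_apply_of_semiconj E S r hr, ← hns j]
        have h2 : K + e = (e - i) + K + i := by omega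
        rw [h2, pow_add, pow_add, Module.End.mul_apply, Module.End.mul_apply, hSpow]
    have hsingle : ∀ (j : Fin n') (c : A[X]), c ∈ Polynomial.degreeLE A (e : WithBot ℕ) →
        Pi.single j c ∈ Q := by
      intro j c hc
      rw [Polynomial.degreeLE_eq_span_X_pow] at hc
      have : Submodule.span A
          ((Finset.image (fun i => (X : A[X]) ^ i) (Finset.range (e + 1)) : Finset A[X]) :
            Set A[X]) ≤ Submodule.comap (LinearMap.single A (fun _ : Fin n' => A[X]) j) Q := by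
        rw [Submodule.span_le]
        intro c hc
        simp only [Finset.coe_image, Set.mem_image, Finset.mem_coe, Finset.mem_range] at hc
        obtain ⟨i, hi, rfl⟩ := hc
        exact hgen j i (by omega)
      exact this hc
    have hw'Q : w' ∈ Q := by
      rw [← Finset.univ_sum_single w']
      refine Submodule.sum_mem _ fun j _ => hsingle j _ ?_
      rw [Polynomial.mem_degreeLE]
      exact mem_polyLE.mp hw' j
    exact (hQ w').mp hw'Q
  -- Claim B
  obtain ⟨e, he⟩ := exists_mem_polyLE (ι' b)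
  obtain ⟨w, hw, hw2⟩ := claimA e (ι' b) he
  have hb : π' (ι' b) = b := by
    have := congrArg (fun f => f b) hπι'
    simpa using this
  rw [hb] at hw2
  have h1 : r ((E ^ (K + e)) a) = r ((E ^ m) w) := by
    rw [pow_apply_of_semiconj E S r hr, pow_apply_of_semiconj E S r hr, hab, ← hw2,
      ← Module.End.mul_apply, ← Module.End.mul_apply, ← pow_add, ← pow_add, add_comm]
  have h2 : (E ^ (K + e)) a = (E ^ m) w := hinj h1
  have h3 : (X : A[X]) ^ (K + e) • ι a = (X : A[X]) ^ m • ι w := by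
    rw [← iota_pow_apply E ι hι, ← iota_pow_apply E ι hι, h2]
  refine mem_polyLE_of_X_pow_smul_mem (K + e) ?_
  rw [h3]
  refine polyLE_mono ?_ (X_pow_smul_mem_polyLE hw m)
  omega

end Half

variable {N0 N1 N01 : Type v}
  [AddCommGroup N0] [AddCommGroup N1] [AddCommGroup N01]
  [Module A N0] [Module A N1] [Module A N01]

/-- Explicit form of K1a: uniform degree bounds for the coordinates of elements of
`H⁰(L(m∞))`, for given retraction data of the two charts. -/
theorem exists_degree_bounds (D : CechOps A N0 N1 N01)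
    (hr0 : Function.Injective D.r0) (hr1 : Function.Injective D.r1)
    {n0 : ℕ} (ι0 : N0 →ₗ[A] (Fin n0 → A[X])) (π0 : (Fin n0 → A[X]) →ₗ[A] N0)
    (hπι0 : π0 ∘ₗ ι0 = LinearMap.id) (hι0 : ∀ v, ι0 (D.X0 v) = (X : A[X]) • ι0 v)
    (hπ0 : ∀ w, π0 ((X : A[X]) • w) = D.X0 (π0 w))
    {n1 : ℕ} (ι1 : N1 →ₗ[A] (Fin n1 → A[X])) (π1 : (Fin n1 → A[X]) →ₗ[A] N1)
    (hπι1 : π1 ∘ₗ ι1 = LinearMap.id) (hι1 : ∀ v, ι1 (D.Y1 v) = (X : A[X]) • ι1 v)
    (hπ1 : ∀ w, π1 ((X : A[X]) • w) = D.Y1 (π1 w)) :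
    ∃ d0 d1 : ℕ, ∀ (m : ℕ) (p : N0 × N1), p ∈ D.H0 m →
      ι0 p.1 ∈ polyLE A n0 (m + d0) ∧ ι1 p.2 ∈ polyLE A n1 (m + d1) := by
  obtain ⟨d0, hd0⟩ := degree_bound_half D.X0 D.Y1 D.T D.Tinv D.r0 D.r1 D.T_mul_Tinv
    D.Tinv_mul_T D.r0_X0 D.r1_Y1 D.loc0 hr0 ι0 hι0 ι1 π1 hπι1 hπ1
  obtain ⟨d1, hd1⟩ := degree_bound_half D.Y1 D.X0 D.Tinv D.T D.r1 D.r0 D.Tinv_mul_T
    D.T_mul_Tinv D.r1_Y1 D.r0_X0 D.loc1 hr1 ι1 hι1 ι0 π0 hπι0 hπ0
  refine ⟨d0, d1, fun m p hp => ?_⟩
  rw [CechOps.mem_ker_d] at hp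
  refine ⟨hd0 m p.1 p.2 hp, hd1 m p.2 p.1 ?_⟩
  rw [hp, D.Tinv_pow_T_pow_apply]

/-- **K1a (degree bound).** `H⁰(L(m∞))` is contained in a finitely generated `A`-submodule. -/
theorem exists_fg_ge_H0 (D : CechOps A N0 N1 N01) (h0 : IsFGProj D.X0) (h1 : IsFGProj D.Y1)
    (hr0 : Function.Injective D.r0) (hr1 : Function.Injective D.r1)
    (m : ℕ) : ∃ M : Submodule A (N0 × N1), M.FG ∧ D.H0 m ≤ M := by
  obtain ⟨n0, ι0, π0, hπι0, hι0, hπ0⟩ := h0
  obtain ⟨n1, ι1, π1, hπι1, hι1, hπ1⟩ := h1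
  obtain ⟨d0, d1, hd⟩ := exists_degree_bounds D hr0 hr1 ι0 π0 hπι0 hι0 hπ0 ι1 π1 hπι1 hι1 hπ1
  refine ⟨((polyLE A n0 (m + d0)).map π0).prod ((polyLE A n1 (m + d1)).map π1),
    Submodule.FG.prod ((polyLE_fg n0 _).map π0) ((polyLE_fg n1 _).map π1), ?_⟩
  intro p hp
  obtain ⟨h0, h1⟩ := hd m p hp
  rw [Submodule.mem_prod]
  refine ⟨⟨ι0 p.1, h0, ?_⟩, ⟨ι1 p.2, h1, ?_⟩⟩
  · have := congrArg (fun f => f p.1) hπι0
    simpa using this
  · have := congrArg (fun f => f p.2) hπι1
    simpa using this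

end Fermat.Agent.S25.H550
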