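import Fermat.Agent.S25.H10.CechDefs
import Fermat.Agent.S25.H130.CechK0
import Fermat.Agent.S25.H370.CechK5
import Fermat.Agent.S25.H550.CechK1a

/-!
# S25 / block CECH / leaf K1 (assembly): the kernel of a surjective twisted differential

`H0_finite_projective_of_surjective` : if `d m` is surjective it has an `A`-linear section and
`H⁰(L(m∞)) = ker (d m)` is a finitely generated projective `A`-module.

Inputs (verbatim hand-ins): K0 (`H130/CechK0.lean`), K1b (`H370/CechK5.lean`),
K1a (`H550/CechK1a.lean`).
-/

set_option autoImplicit false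

namespace Fermat.Agent.S25.H550

open Fermat.Agent.S25.H10

universe u v

variable {A : Type u} [CommRing A]

/-- K1c. A retract contained in a finitely generated submodule is finitely generated. -/
theorem fg_of_le_fg_of_retract {M : Type v} [AddCommGroup M] [Module A M]
    (H M' : Submodule A M) (hM' : M'.FG) (hle : H ≤ M')
    (p : M →ₗ[A] H) (hp : ∀ h : H, p h = h) : H.FG := by
  have : H = M'.map (H.subtype ∘ₗ p) := by
    apply le_antisymm
    · intro h hh
      refine ⟨h, hle hh, ?_⟩
      have := hp ⟨h, hh⟩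
      simp only [LinearMap.coe_comp, Submodule.coe_subtype, Function.comp_apply]
      rw [this]
    · rintro _ ⟨x, -, rfl⟩
      exact (p x).2
  rw [this]
  exact hM'.map _

variable {N0 N1 N01 : Type v}
  [AddCommGroup N0] [AddCommGroup N1] [AddCommGroup N01]
  [Module A N0] [Module A N1] [Module A N01]

/-- The retraction of `N0 × N1` onto `ker (d m)` attached to a section of `d m`. -/
noncomputable def retractH0 (D : CechOps A N0 N1 N01) (m : ℕ) (s : N01 →ₗ[A] N0 × N1)
    (hs : D.d m ∘ₗ s = LinearMap.id) : (N0 × N1) →ₗ[A] D.H0 m :=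
  LinearMap.codRestrict (D.H0 m) (LinearMap.id - s ∘ₗ D.d m) (fun x => by
    rw [LinearMap.mem_ker, LinearMap.sub_apply, map_sub, LinearMap.id_apply,
      LinearMap.comp_apply, ← LinearMap.comp_apply (D.d m) s, hs, LinearMap.id_apply, sub_self])

theorem retractH0_apply_coe (D : CechOps A N0 N1 N01) (m : ℕ) (s : N01 →ₗ[A] N0 × N1)
    (hs : D.d m ∘ₗ s = LinearMap.id) (h : D.H0 m) : retractH0 D m s hs h = h := by
  apply Subtype.ext
  show (h : N0 × N1) - s (D.d m h) = h
  rw [LinearMap.mem_ker.mp h.2, map_zero, sub_zero]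

/-- **K1.** If the twisted differential `d m` is surjective (i.e. `H¹(L(m∞)) = 0`) then it has
an `A`-linear section, and `H⁰(L(m∞))` is a finitely generated projective `A`-module. -/
theorem H0_finite_projective_of_surjective (D : CechOps A N0 N1 N01)
    (h0 : IsFGProj D.X0) (h1 : IsFGProj D.Y1)
    (hr0 : Function.Injective D.r0) (hr1 : Function.Injective D.r1) (m : ℕ)
    (hsurj : Function.Surjective (D.d m)) :
    (∃ s : N01 →ₗ[A] N0 × N1, D.d m ∘ₗ s = LinearMap.id) ∧
      Module.Finite A (D.H0 m) ∧ Module.Projective A (D.H0 m) := by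
  obtain ⟨s, hs⟩ := Fermat.Agent.S25.H370.exists_section_d D h0 hr0 m hsurj
  obtain ⟨M, hM, hle⟩ := exists_fg_ge_H0 D h0 h1 hr0 hr1 m
  have hfg : (D.H0 m).FG :=
    fg_of_le_fg_of_retract (D.H0 m) M hM hle (retractH0 D m s hs) (retractH0_apply_coe D m s hs)
  have : Module.Projective A N0 := Fermat.Agent.S25.H130.projective_of_isFGProj h0
  have : Module.Projective A N1 := Fermat.Agent.S25.H130.projective_of_isFGProj h1
  refine ⟨⟨s, hs⟩, Module.Finite.iff_fg.mpr hfg, ?_⟩
  refine Module.Projective.of_split (D.H0 m).subtype (retractH0 D m s hs) ?_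
  exact LinearMap.ext fun h => retractH0_apply_coe D m s hs h

end Fermat.Agent.S25.H550
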