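import Fermat.Agent.S25.H10.CechDefs
import Fermat.Agent.S25.H130.CechK0
import Fermat.Agent.S25.H370.CechK5
import Fermat.Agent.S25.H730.K3
import Fermat.Agent.S25.H550.CechK1
import Fermat.Agent.S25.H550.CechK2

/-!
# S25 / block CECH / leaf K6 (assembly): the finite model of the Čech complex

`exists_finite_model` : for a two-chart Čech datum whose charts are retracts of `A[X]^n` with
injective restriction maps, there is `m` such that `δ m : H⁰(L(m∞)) → N1 / y^m N1` is a map of
finitely generated projective `A`-modules which computes `H⁰` and `H¹` of the Čech complex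
universally (after every base change).

Inputs (verbatim hand-ins): K0 (`H130/CechK0.lean`), K1b + K5 (`H370/CechK5.lean`),
K3 (`H730/K3.lean`), K1a, K1, K2 (`H550`).
-/

set_option autoImplicit false

namespace Fermat.Agent.S25.H550

open Fermat.Agent.S25.H10 TensorProduct

universe u v w

section Generic

variable {R : Type*} [CommRing R] {M N M' N' P Q : Type*}
  [AddCommGroup M] [AddCommGroup N] [AddCommGroup M'] [AddCommGroup N']
  [AddCommGroup P] [AddCommGroup Q]
  [Module R M] [Module R N] [Module R M'] [Module R N'] [Module R P] [Module R Q]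

/-- A commutative square with bijective vertical maps identifies kernels. -/
theorem nonempty_ker_equiv_of_square (f : M →ₗ[R] N) (f' : M' →ₗ[R] N')
    (e1 : M ≃ₗ[R] M') (e2 : N →ₗ[R] N') (he2 : Function.Injective e2)
    (h : ∀ x, e2 (f x) = f' (e1 x)) :
    Nonempty (LinearMap.ker f ≃ₗ[R] LinearMap.ker f') := by
  refine ⟨LinearEquiv.ofSubmodules e1 _ _ ?_⟩
  ext y
  simp only [Submodule.mem_map, LinearMap.mem_ker, LinearEquiv.coe_coe]
  constructor
  · rintro ⟨x, hx, rfl⟩
    rw [← h, hx, map_zero]
  · intro hy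
    refine ⟨e1.symm y, he2 ?_, e1.apply_symm_apply y⟩
    rw [h, e1.apply_symm_apply, hy, map_zero]

/-- A commutative square with bijective vertical maps identifies cokernels. -/
theorem nonempty_coker_equiv_of_square (f : M →ₗ[R] N) (f' : M' →ₗ[R] N')
    (e1 : M →ₗ[R] M') (he1 : Function.Surjective e1) (e2 : N ≃ₗ[R] N')
    (h : ∀ x, e2 (f x) = f' (e1 x)) :
    Nonempty ((N ⧸ LinearMap.range f) ≃ₗ[R] (N' ⧸ LinearMap.range f')) := by
  refine ⟨Submodule.Quotient.equiv _ _ e2 ?_⟩
  ext y
  simp only [Submodule.mem_map, LinearMap.mem_range, LinearEquiv.coe_coe]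
  constructor
  · rintro ⟨_, ⟨x, rfl⟩, rfl⟩
    exact ⟨e1 x, (h x).symm⟩
  · rintro ⟨x', rfl⟩
    obtain ⟨x, rfl⟩ := he1 x'
    exact ⟨f x, ⟨x, rfl⟩, h x⟩

/-- Left exactness `0 → P → M → N` identifies `P` with the kernel. -/
theorem nonempty_equiv_ker_of_exact (i : P →ₗ[R] M) (f : M →ₗ[R] N)
    (hi : Function.Injective i) (h : LinearMap.range i = LinearMap.ker f) :
    Nonempty (LinearMap.ker f ≃ₗ[R] P) :=
  ⟨((LinearEquiv.ofInjective i hi).trans (LinearEquiv.ofEq _ _ h)).symm⟩

/-- Right exactness `M → N → Q → 0` identifies `Q` with the cokernel. -/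
theorem nonempty_coker_equiv_of_exact (f : M →ₗ[R] N) (c : N →ₗ[R] Q)
    (hc : Function.Surjective c) (h : LinearMap.range f = LinearMap.ker c) :
    Nonempty ((N ⧸ LinearMap.range f) ≃ₗ[R] Q) :=
  ⟨(Submodule.quotEquivOfEq _ _ h).trans (c.quotKerEquivOfSurjective hc)⟩

end Generic

section BaseChangeQuot

variable {A : Type u} [CommRing A] (A' : Type w) [CommRing A'] [Algebra A A']
  {N : Type v} [AddCommGroup N] [Module A N]

/-- The comparison map `(A' ⊗ N) ⧸ range (A' ⊗ E) → A' ⊗ (N ⧸ range E)`. -/
noncomputable def quotBaseChange (E : Module.End A N) :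
    ((A' ⊗[A] N) ⧸ LinearMap.range (E.baseChange A')) →ₗ[A']
      A' ⊗[A] (N ⧸ LinearMap.range E) :=
  Submodule.liftQ _ ((LinearMap.range E).mkQ.baseChange A') (by
    rintro _ ⟨t, rfl⟩
    rw [LinearMap.mem_ker, ← LinearMap.comp_apply, ← LinearMap.baseChange_comp]
    have : (LinearMap.range E).mkQ ∘ₗ E = 0 := by
      refine LinearMap.ext fun x => ?_
      simp
    rw [this, LinearMap.baseChange_zero, LinearMap.zero_apply])

theorem quotBaseChange_mk (E : Module.End A N) (t : A' ⊗[A] N) :
    quotBaseChange A' E (Submodule.Quotient.mk t) = (LinearMap.range E).mkQ.baseChange A' t :=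
  rfl

theorem quotBaseChange_bijective (E : Module.End A N) :
    Function.Bijective (quotBaseChange A' E) := by
  have hex : Function.Exact (E.baseChange A') ((LinearMap.range E).mkQ.baseChange A') := by
    have := lTensor_exact A' (LinearMap.exact_map_mkQ_range E)
      (Submodule.mkQ_surjective _)
    intro t
    have h1 := this t
    simpa [LinearMap.baseChange_eq_ltensor] using h1
  constructor
  · rw [← LinearMap.ker_eq_bot, quotBaseChange, Submodule.ker_liftQ_eq_bot']
    exact hex.linearMap_ker_eq.symm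
  · intro z
    obtain ⟨t, rfl⟩ : ∃ t, (LinearMap.range E).mkQ.baseChange A' t = z := by
      have := LinearMap.lTensor_surjective A' (Submodule.mkQ_surjective (LinearMap.range E))
      obtain ⟨t, ht⟩ := this z
      exact ⟨t, by simpa [LinearMap.baseChange_eq_ltensor] using ht⟩
    exact ⟨Submodule.Quotient.mk t, rfl⟩

end BaseChangeQuot

variable {A : Type u} [CommRing A] {N0 N1 N01 : Type v}
  [AddCommGroup N0] [AddCommGroup N1] [AddCommGroup N01]
  [Module A N0] [Module A N1] [Module A N01]

section BaseChange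

variable (A' : Type w) [CommRing A'] [Algebra A A']

theorem baseChange_d_surjective (D : CechOps A N0 N1 N01) (m : ℕ)
    (hsurj : Function.Surjective (D.d m)) : Function.Surjective ((D.baseChange A').d m) := by
  have h1 : Function.Surjective ((D.d m).baseChange A') := by
    have := LinearMap.lTensor_surjective A' hsurj
    intro z
    obtain ⟨t, ht⟩ := this z
    exact ⟨t, by simpa [LinearMap.baseChange_eq_ltensor] using ht⟩
  rw [← Fermat.Agent.S25.H370.baseChange_d] at h1
  exact Function.Surjective.of_comp h1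

/-- The comparison `A' ⊗ H⁰(L(m∞)) ≃ H⁰(L_{A'}(m∞))` when `d m` is surjective. -/
theorem exists_H0_baseChange_equiv (D : CechOps A N0 N1 N01)
    (h0 : IsFGProj D.X0) (hr0 : Function.Injective D.r0) (m : ℕ)
    (hsurj : Function.Surjective (D.d m)) :
    ∃ e : (A' ⊗[A] D.H0 m) ≃ₗ[A'] (D.baseChange A').H0 m, ∀ t,
      ((e t : (D.baseChange A').H0 m) : (A' ⊗[A] N0) × (A' ⊗[A] N1)) =
        TensorProduct.prodRight A A' A' N0 N1 ((D.H0 m).subtype.baseChange A' t) := by
  obtain ⟨hinj, hrange⟩ :=
    Fermat.Agent.S25.H370.H0_baseChange_bijective A' D h0 hr0 m hsurj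
  have hmap : (LinearMap.ker ((D.d m).baseChange A')).map
      ((TensorProduct.prodRight A A' A' N0 N1).toLinearMap) = (D.baseChange A').H0 m := by
    ext y
    simp only [Submodule.mem_map, LinearMap.mem_ker, LinearEquiv.coe_coe]
    constructor
    · rintro ⟨x, hx, rfl⟩
      rw [← Fermat.Agent.S25.H370.baseChange_d] at hx
      exact hx
    · intro hy
      refine ⟨(TensorProduct.prodRight A A' A' N0 N1).symm y, ?_, LinearEquiv.apply_symm_apply _ _⟩
      rw [← Fermat.Agent.S25.H370.baseChange_d, LinearMap.comp_apply, LinearEquiv.coe_coe,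
        LinearEquiv.apply_symm_apply]
      exact hy
  refine ⟨((LinearEquiv.ofInjective _ hinj).trans (LinearEquiv.ofEq _ _ hrange)).trans
    (LinearEquiv.ofSubmodules (TensorProduct.prodRight A A' A' N0 N1) _ _ hmap), fun t => rfl⟩

end BaseChange

/-- **K6 (finite model).** There are `m` and the map `δ m : H⁰(L(m∞)) → N1/y^m N1` between
finitely generated projective `A`-modules which computes `H⁰` and `H¹` of the Čech complex
universally: after every base change `A → A'` its kernel and cokernel are those of `A' ⊗ d 0`. -/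
theorem exists_finite_model (D : CechOps A N0 N1 N01)
    (h0 : IsFGProj D.X0) (h1 : IsFGProj D.Y1)
    (hr0 : Function.Injective D.r0) (hr1 : Function.Injective D.r1) :
    ∃ m : ℕ, Function.Surjective (D.d m) ∧
      Module.Finite A (D.H0 m) ∧ Module.Projective A (D.H0 m) ∧
      Module.Finite A (N1 ⧸ LinearMap.range (D.Y1 ^ m)) ∧
      Module.Projective A (N1 ⧸ LinearMap.range (D.Y1 ^ m)) ∧
      ∀ (A' : Type (max u v)) [CommRing A'] [Algebra A A'],
        Nonempty (LinearMap.ker ((D.δ m).baseChange A') ≃ₗ[A']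
          LinearMap.ker ((D.d 0).baseChange A')) ∧
        Nonempty (((A' ⊗[A] (N1 ⧸ LinearMap.range (D.Y1 ^ m))) ⧸
            LinearMap.range ((D.δ m).baseChange A')) ≃ₗ[A']
          ((A' ⊗[A] N01) ⧸ LinearMap.range ((D.d 0).baseChange A'))) := by
  obtain ⟨m0, hm0⟩ := exists_forall_d_surjective D (Fermat.Agent.S25.H130.isFG_of_isFGProj h0)
  have hsurj := hm0 m0 le_rfl
  obtain ⟨-, hfin, hproj⟩ := H0_finite_projective_of_surjective D h0 h1 hr0 hr1 m0 hsurj
  obtain ⟨hqfin, hqproj⟩ := Fermat.Agent.S25.H130.quotient_pow_finite_projective h1 m0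
  refine ⟨m0, hsurj, hfin, hproj, hqfin, hqproj, fun A' _ _ => ?_⟩
  -- the base-changed datum
  have h1' : IsFGProj (D.baseChange A').Y1 := Fermat.Agent.S25.H370.isFGProj_baseChange A' h1
  have hY' : Function.Injective (D.baseChange A').Y1 :=
    Fermat.Agent.S25.H130.injective_of_isFGProj h1'
  have hsurj' := baseChange_d_surjective A' D m0 hsurj
  -- K3 for the base-changed datum
  obtain ⟨k1⟩ := nonempty_equiv_ker_of_exact (R := A') (P := (D.baseChange A').H0 0)
    (M := (D.baseChange A').H0 m0) (i := (D.baseChange A').incl m0)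
    (f := (D.baseChange A').δ m0) (Fermat.Agent.S25.H730.incl_injective (D.baseChange A') hY' m0)
    (Fermat.Agent.S25.H730.range_incl_eq_ker_δ (D.baseChange A') m0)
  obtain ⟨c1⟩ := nonempty_coker_equiv_of_exact (R := A') (M := (D.baseChange A').H0 m0)
    (Q := (D.baseChange A').H1 0) (f := (D.baseChange A').δ m0)
    (c := (D.baseChange A').conn m0)
    (Fermat.Agent.S25.H730.conn_surjective (D.baseChange A') m0 hsurj')
    (Fermat.Agent.S25.H730.range_δ_eq_ker_conn (D.baseChange A') m0)
  -- comparison of `δ`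
  obtain ⟨e1, he1⟩ := exists_H0_baseChange_equiv A' D h0 hr0 m0 hsurj
  have hpow : (D.baseChange A').Y1 ^ m0 = (D.Y1 ^ m0).baseChange A' :=
    Fermat.Agent.S25.H370.baseChange_pow A' D.Y1 m0
  let q : ((A' ⊗[A] N1) ⧸ LinearMap.range ((D.baseChange A').Y1 ^ m0)) ≃ₗ[A']
      A' ⊗[A] (N1 ⧸ LinearMap.range (D.Y1 ^ m0)) :=
    (Submodule.quotEquivOfEq _ _ (by rw [hpow])).trans
      (LinearEquiv.ofBijective (quotBaseChange A' (D.Y1 ^ m0))
        (quotBaseChange_bijective A' (D.Y1 ^ m0)))
  have hsq : ∀ t : A' ⊗[A] D.H0 m0,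
      q.symm ((D.δ m0).baseChange A' t) = (D.baseChange A').δ m0 (e1 t) := by
    intro t
    rw [LinearEquiv.symm_apply_eq]
    induction t using TensorProduct.induction_on with
    | zero => simp
    | tmul a p =>
      rw [CechOps.δ_apply, he1]
      simp only [LinearMap.baseChange_tmul, Submodule.coe_subtype,
        TensorProduct.prodRight_tmul, CechOps.δ_apply]
      rfl
    | add x y hx hy => simp only [map_add, hx, hy]
  obtain ⟨k2⟩ := nonempty_ker_equiv_of_square (R := A') (M' := (D.baseChange A').H0 m0)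
    (f := (D.δ m0).baseChange A')
    (f' := (D.baseChange A').δ m0) e1 q.symm.toLinearMap q.symm.injective hsq
  obtain ⟨c2⟩ := nonempty_coker_equiv_of_square (R := A') (M' := (D.baseChange A').H0 m0)
    (f := (D.δ m0).baseChange A')
    (f' := (D.baseChange A').δ m0) e1.toLinearMap e1.surjective q.symm hsq
  -- comparison of `d 0`
  have hd0 := Fermat.Agent.S25.H370.baseChange_d A' D 0
  obtain ⟨k3⟩ := nonempty_ker_equiv_of_square ((D.d 0).baseChange A')
    ((D.baseChange A').d 0) (TensorProduct.prodRight A A' A' N0 N1) LinearMap.id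
    Function.injective_id (fun x => by rw [← hd0]; rfl)
  obtain ⟨c3⟩ := nonempty_coker_equiv_of_square ((D.d 0).baseChange A')
    ((D.baseChange A').d 0) (TensorProduct.prodRight A A' A' N0 N1).toLinearMap
    (TensorProduct.prodRight A A' A' N0 N1).surjective (LinearEquiv.refl A' _)
    (fun x => by rw [← hd0]; rfl)
  exact ⟨⟨(k2.trans k1).trans k3.symm⟩, ⟨(c2.trans c1).trans c3.symm⟩⟩

end Fermat.Agent.S25.H550
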