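import Fermat.Agent.S25.DefsAlg
import Fermat.Agent.S25.H250.AdapterProj
import Fermat.Agent.S25.H550.CechK6
import Fermat.Agent.S25.H550.GDBaseChangeLin
import Fermat.Agent.S25.H687.DDDefs

/-!
# S25 / block DEGREE, leaf D9: the degree is constant in families over a domain

* `exists_euler_eq` : for a gluing datum `G` on `C_A`, `A` a domain, the Euler characteristic
  of every base change of `G` to a field is the same integer (the difference of the ranks of
  the two finitely generated projective `A`-modules of the finite model K6).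
* `isBC_unit` : the unit datum over `A'` is a base change of the unit datum over `A`.
* `degConst` : `H687.DegConst k B₀ B₁ B₀₁` (exact statement of `DDDefs.lean`).
* `degree_eq_of_isBC_field` (D2): invariance of the degree under extension of the base field.
-/

set_option autoImplicit false
set_option linter.style.haveILetI false

namespace Fermat.Agent.S25.H550

open scoped TensorProduct
open Fermat.Agent.S25 Fermat.Agent.S25.H10

universe u

section LinearAlgebra

theorem finrank_tensor_eq_rankAtStalk_bot {A : Type u} [CommRing A] [IsDomain A] (P : Type u)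
    [AddCommGroup P] [Module A P] [Module.Finite A P] [Module.Projective A P]
    (K : Type u) [Field K] [Algebra A K] :
    Module.finrank K (K ⊗[A] P) =
      Module.rankAtStalk P (⟨⊥, Ideal.isPrime_bot⟩ : PrimeSpectrum A) := by
  have h1 : Module.rankAtStalk (K ⊗[A] P) (⟨⊥, Ideal.isPrime_bot⟩ : PrimeSpectrum K) =
      Module.finrank K (K ⊗[A] P) := by
    rw [Module.rankAtStalk_eq_finrank_of_free]
    rfl
  rw [← h1, Module.rankAtStalk_baseChange]
  exact (Module.rankAtStalk_eq_of_le_of_finite_of_flat P (p := ⟨⊥, Ideal.isPrime_bot⟩)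
    bot_le).symm

theorem finrank_ker_sub_finrank_coker {K : Type*} [Field K] {V W : Type*} [AddCommGroup V]
    [Module K V] [AddCommGroup W] [Module K W] [FiniteDimensional K V] [FiniteDimensional K W]
    (f : V →ₗ[K] W) :
    (Module.finrank K (LinearMap.ker f) : ℤ) - Module.finrank K (W ⧸ LinearMap.range f) =
      (Module.finrank K V : ℤ) - Module.finrank K W := by
  have h1 := LinearMap.finrank_range_add_finrank_ker f
  have h2 := Submodule.finrank_quotient_add_finrank (LinearMap.range f)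
  omega

end LinearAlgebra

variable {k : Type u} [Field k] {B₀ B₁ B₀₁ : Type u} [CommRing B₀] [CommRing B₁] [CommRing B₀₁]
  [Algebra k B₀] [Algebra k B₁] [Algebra k B₀₁] [Algebra B₀ B₀₁] [Algebra B₁ B₀₁]
  [IsScalarTower k B₀ B₀₁] [IsScalarTower k B₁ B₀₁]
  {x : B₀} {y : B₁} {e : B₁ →ₐ[k] k}

/-- **Euler characteristic is constant in families over a domain.** -/
theorem exists_euler_eq (h : IsCurveChart k B₀ B₁ B₀₁ x y e)
    {A : Type u} [CommRing A] [IsDomain A] [Algebra k A] (G : CurveGD k B₀ B₁ B₀₁ A) :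
    ∃ χ : ℤ, ∀ (K : Type u) [Field K] [Algebra k K] (φ : A →ₐ[k] K)
      (G' : CurveGD k B₀ B₁ B₀₁ K), CurveGD.IsBC φ G G' → G'.euler = χ := by
  obtain ⟨m, -, hPfin, hPproj, hQfin, hQproj, huniv⟩ :=
    exists_finite_model (Fermat.Agent.S25.H250.chartCechOps h G)
      (Fermat.Agent.S25.H250.isFGProj_X0 h G) (Fermat.Agent.S25.H250.isFGProj_Y1 h G)
      (Fermat.Agent.S25.H250.r0_injective h G) (Fermat.Agent.S25.H250.r1_injective h G)
  rw [Fermat.Agent.S25.H250.chartCechOps_d_zero h G] at huniv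
  set D := Fermat.Agent.S25.H250.chartCechOps h G with hD
  refine ⟨(Module.rankAtStalk ((D.H0 m)) (⟨⊥, Ideal.isPrime_bot⟩ : PrimeSpectrum A) : ℤ) -
    Module.rankAtStalk (G.N₁ ⧸ LinearMap.range (D.Y1 ^ m))
      (⟨⊥, Ideal.isPrime_bot⟩ : PrimeSpectrum A), ?_⟩
  intro K _ _ φ G' hbc
  letI algAK : Algebra A K := φ.toRingHom.toAlgebra
  haveI : IsScalarTower k A K := IsScalarTower.of_algebraMap_eq (fun r => (φ.commutes r).symm)
  have hφ : ∀ a, φ a = algebraMap A K a := fun _ => rfl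
  obtain ⟨⟨k2⟩, ⟨c2⟩⟩ := huniv K
  obtain ⟨E, E₀₁, hE⟩ := exists_cech_baseChange_equiv φ hφ G G' hbc
  obtain ⟨k3⟩ := nonempty_ker_equiv_of_square (R := K) (f := G.cech.baseChange K)
    (f' := G'.cech) E E₀₁.toLinearMap E₀₁.injective hE
  obtain ⟨c3⟩ := nonempty_coker_equiv_of_square (R := K) (f := G.cech.baseChange K)
    (f' := G'.cech) E.toLinearMap E.surjective E₀₁ hE
  have e0 : Module.finrank K G'.H0 =
      Module.finrank K (LinearMap.ker ((D.δ m).baseChange K)) :=
    (k2.trans k3).finrank_eq.symm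
  have e1 : Module.finrank K G'.H1 =
      Module.finrank K ((K ⊗[A] (G.N₁ ⧸ LinearMap.range (D.Y1 ^ m))) ⧸
        LinearMap.range ((D.δ m).baseChange K)) :=
    (c2.trans c3).finrank_eq.symm
  rw [GlueDatum.euler, e0, e1, finrank_ker_sub_finrank_coker,
    finrank_tensor_eq_rankAtStalk_bot, finrank_tensor_eq_rankAtStalk_bot]

section Unit

variable {A A' : Type u} [CommRing A] [Algebra k A] [CommRing A'] [Algebra k A']

theorem tensorMapLeft_algebraMap_right (φ : A →ₐ[k] A') (B B' : Type u) [CommRing B]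
    [CommRing B'] [Algebra k B] [Algebra k B'] [Algebra B B'] [IsScalarTower k B B']
    (s : A ⊗[k] B) :
    tensorMapLeft k φ B' (algebraMap (A ⊗[k] B) (A ⊗[k] B') s) =
      algebraMap (A' ⊗[k] B) (A' ⊗[k] B') (tensorMapLeft k φ B s) := by
  induction s using TensorProduct.induction_on with
  | zero => simp
  | tmul a b =>
    show (Algebra.TensorProduct.map φ (AlgHom.id k B'))
        ((Algebra.TensorProduct.map (AlgHom.id A A) (IsScalarTower.toAlgHom k B B')) (a ⊗ₜ b)) =
      (Algebra.TensorProduct.map (AlgHom.id A' A') (IsScalarTower.toAlgHom k B B'))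
        ((Algebra.TensorProduct.map φ (AlgHom.id k B)) (a ⊗ₜ b))
    simp only [Algebra.TensorProduct.map_tmul, AlgHom.coe_id, id_eq]
  | add x y hx hy => simp only [map_add, hx, hy]

theorem isSemilinearBaseChange_ringHom {R R' : Type u} [CommRing R] [CommRing R']
    (ρ : R →+* R') : IsSemilinearBaseChange ρ ρ.toSemilinearMap := by
  letI : Algebra R R' := ρ.toAlgebra
  exact IsBaseChange.linearMap R R'

/-- The unit datum over `A'` is a base change of the unit datum over `A`. -/
theorem isBC_unit (φ : A →ₐ[k] A') :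
    CurveGD.IsBC (B₀ := B₀) (B₁ := B₁) (B₀₁ := B₀₁) φ
      (GlueDatum.unit A (A ⊗[k] B₀) (A ⊗[k] B₁) (A ⊗[k] B₀₁))
      (GlueDatum.unit A' (A' ⊗[k] B₀) (A' ⊗[k] B₁) (A' ⊗[k] B₀₁)) :=
  ⟨{ b₀ := (tensorMapLeft k φ B₀).toSemilinearMap
     b₁ := (tensorMapLeft k φ B₁).toSemilinearMap
     b₀₁ := (tensorMapLeft k φ B₀₁).toSemilinearMap
     comm₀ := fun s => tensorMapLeft_algebraMap_right φ B₀ B₀₁ s
     comm₁ := fun s => tensorMapLeft_algebraMap_right φ B₁ B₀₁ s
     isBaseChange₀ := isSemilinearBaseChange_ringHom _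
     isBaseChange₁ := isSemilinearBaseChange_ringHom _
     isBaseChange₀₁ := isSemilinearBaseChange_ringHom _ }⟩

end Unit

/-- **D9 / `DegConst`** (exact statement of `H687/DDDefs.lean`): over a domain all fibres of a
gluing datum have the same degree. -/
theorem degConst : Fermat.Agent.S25.H687.DegConst k B₀ B₁ B₀₁ := by
  intro x y e h A _ _ _ G K₁ K₂ _ _ _ _ φ₁ φ₂ G₁ G₂ h₁ h₂
  obtain ⟨χ, hχ⟩ := exists_euler_eq h G
  obtain ⟨χ₀, hχ₀⟩ := exists_euler_eq h
    (GlueDatum.unit A (A ⊗[k] B₀) (A ⊗[k] B₁) (A ⊗[k] B₀₁))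
  rw [GlueDatum.degree, GlueDatum.degree, hχ K₁ φ₁ G₁ h₁, hχ K₂ φ₂ G₂ h₂,
    hχ₀ K₁ φ₁ _ (isBC_unit φ₁), hχ₀ K₂ φ₂ _ (isBC_unit φ₂)]

/-- **D2**: the degree is invariant under extension of the base field. -/
theorem degree_eq_of_isBC_field (h : IsCurveChart k B₀ B₁ B₀₁ x y e)
    {K K' : Type u} [Field K] [Field K'] [Algebra k K] [Algebra k K'] (φ : K →ₐ[k] K')
    (G : CurveGD k B₀ B₁ B₀₁ K) (G' : CurveGD k B₀ B₁ B₀₁ K')
    (hid : CurveGD.IsBC (AlgHom.id k K) G G) (hbc : CurveGD.IsBC φ G G') :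
    G'.degree = G.degree :=
  degConst x y e h K G K' K φ (AlgHom.id k K) G' G hbc hid

/-- The degree of a fibre, as a function of the gluing datum over a domain. -/
theorem exists_degree_eq (h : IsCurveChart k B₀ B₁ B₀₁ x y e)
    {A : Type u} [CommRing A] [IsDomain A] [Algebra k A] (G : CurveGD k B₀ B₁ B₀₁ A) :
    ∃ d : ℤ, ∀ (K : Type u) [Field K] [Algebra k K] (φ : A →ₐ[k] K)
      (G' : CurveGD k B₀ B₁ B₀₁ K), CurveGD.IsBC φ G G' → G'.degree = d := by
  obtain ⟨χ, hχ⟩ := exists_euler_eq h G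
  obtain ⟨χ₀, hχ₀⟩ := exists_euler_eq h
    (GlueDatum.unit A (A ⊗[k] B₀) (A ⊗[k] B₁) (A ⊗[k] B₀₁))
  refine ⟨χ - χ₀, fun K _ _ φ G' hbc => ?_⟩
  rw [GlueDatum.degree, hχ K φ G' hbc, hχ₀ K φ _ (isBC_unit φ)]

end Fermat.Agent.S25.H550
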