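import Mathlib
import Fermat.Agent.S25.H310.FlatQuotient

/-!
# S25 / ALGCHARTS C2 core: fibrewise injective ⇒ universally injective with flat cokernel

Let `u : F → F'` be a linear map of `A`-modules with `F` free and `F'` flat.

* `injective_of_forall_maximal` : if `(A ⧸ m) ⊗ u` is injective for every maximal ideal `m`,
  then `u` is injective.
* `baseChange_injective_of_forall_field` : if `K ⊗ u` is injective for every field `K` over `A`,
  then `A' ⊗ u` is injective for every `A`-algebra `A'` (universal injectivity).
* `flat_coker_of_forall_field` : under the same hypothesis `F' ⧸ range u` is flat over `A`.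

No finiteness or noetherian hypothesis; this replaces the norm/McCoy argument (E4) for maps
which are not endomorphisms, e.g. a section `R₀ → N₀` of an invertible module.
-/

set_option autoImplicit false
set_option linter.style.haveILetI false

namespace Fermat.Agent.S25.H550

open TensorProduct

universe u u' v w

section Aux

variable {A : Type u} [CommRing A]

/-- If every linear functional `M → A ⧸ m` vanishes, then `M = m M`. -/
theorem top_le_smul_top_of_forall_dual_eq_zero (m : Ideal A) [m.IsMaximal]
    (M : Type u) [AddCommGroup M] [Module A M]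
    (h : ∀ f : M →ₗ[A] (A ⧸ m), f = 0) : (⊤ : Submodule A M) ≤ m • ⊤ := by
  letI : Field (A ⧸ m) := Ideal.Quotient.field m
  intro x _
  have hv : (Submodule.Quotient.mk x : M ⧸ (m • ⊤ : Submodule A M)) = 0 := by
    rw [← Module.forall_dual_apply_eq_zero_iff (A ⧸ m)]
    intro φ
    have := h ((φ.restrictScalars A) ∘ₗ (m • ⊤ : Submodule A M).mkQ)
    exact DFunLike.congr_fun this x
  exact (Submodule.Quotient.mk_eq_zero _).mp hv

/-- A finitely generated module with `M = m M` for all maximal ideals is zero. -/
theorem subsingleton_of_forall_top_le_smul_top (M : Type u) [AddCommGroup M] [Module A M]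
    [Module.Finite A M]
    (h : ∀ (m : Ideal A) [m.IsMaximal], (⊤ : Submodule A M) ≤ m • ⊤) : Subsingleton M := by
  by_contra hM
  rw [not_subsingleton_iff_nontrivial] at hM
  have hann : Module.annihilator A M ≠ ⊤ := by
    intro htop
    have : (1 : A) ∈ Module.annihilator A M := by rw [htop]; trivial
    rw [Module.mem_annihilator] at this
    obtain ⟨x, y, hxy⟩ := hM
    exact hxy (by rw [← one_smul A x, ← one_smul A y, this x, this y])
  obtain ⟨m, hm, hle⟩ := Ideal.exists_le_maximal _ hann
  obtain ⟨r, hr, hr0⟩ := Submodule.exists_sub_one_mem_and_smul_eq_zero_of_fg_of_le_smul m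
    (⊤ : Submodule A M) Module.Finite.fg_top (h m)
  have hrann : r ∈ Module.annihilator A M := by
    rw [Module.mem_annihilator]
    exact fun x => hr0 x trivial
  have h1 : (1 : A) ∈ m := by
    have := m.sub_mem (hle hrann) hr
    simpa using this
  exact hm.ne_top ((Ideal.eq_top_iff_one m).mpr h1)

end Aux

section Main

variable {A : Type u} [CommRing A] {F : Type v} {F' : Type w} [AddCommGroup F] [Module A F]
  [AddCommGroup F'] [Module A F']

/-- **Fibrewise injective ⇒ injective.** -/
theorem injective_of_forall_maximal [Module.Free A F] [Module.Flat A F'] (u : F →ₗ[A] F')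
    (hfib : ∀ (m : Ideal A) [m.IsMaximal], Function.Injective (u.lTensor (A ⧸ m))) :
    Function.Injective u := by
  classical
  rw [injective_iff_map_eq_zero]
  intro r hr
  let ι := Module.Free.ChooseBasisIndex A F
  let b : Module.Basis ι A F := Module.Free.chooseBasis A F
  -- coefficients of `r`
  set S : Finset ι := (b.repr r).support with hS
  let a : ι → A := fun i => b.repr r i
  let 𝔞 : Ideal A := Ideal.span (a '' (S : Set ι))
  have ha_mem : ∀ i, a i ∈ 𝔞 := by
    intro i
    by_cases hi : i ∈ S
    · exact Ideal.subset_span ⟨i, hi, rfl⟩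
    · have : a i = 0 := by
        simpa [hS, Finsupp.mem_support_iff] using hi
      rw [this]
      exact 𝔞.zero_mem
  have hr_sum : r = ∑ i ∈ S, a i • b i := by
    conv_lhs => rw [← b.linearCombination_repr r]
    rw [Finsupp.linearCombination_apply, Finsupp.sum]
  -- the element `ρ = Σ aᵢ ⊗ bᵢ` of `𝔞 ⊗ F`
  let ρ : 𝔞 ⊗[A] F := ∑ i ∈ S, (⟨a i, ha_mem i⟩ : 𝔞) ⊗ₜ[A] b i
  have hρ : (u.lTensor 𝔞) ρ = 0 := by
    have hinj : Function.Injective ((Submodule.subtype 𝔞).rTensor F') :=
      Module.Flat.rTensor_preserves_injective_linearMap _ (Submodule.subtype_injective _)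
    apply hinj
    rw [map_zero]
    apply (TensorProduct.lid A F').injective
    rw [map_zero]
    simp only [ρ, map_sum, LinearMap.lTensor_tmul, LinearMap.rTensor_tmul,
      Submodule.subtype_apply, TensorProduct.lid_tmul]
    rw [← hr, hr_sum, map_sum]
    simp only [map_smul]
  haveI : Module.Finite A 𝔞 :=
    Module.Finite.iff_fg.mpr (Submodule.fg_span ((Finset.finite_toSet S).image a))
  -- every functional `𝔞 → A ⧸ m` vanishes
  have hfun : ∀ (m : Ideal A) [m.IsMaximal] (f : 𝔞 →ₗ[A] (A ⧸ m)), f = 0 := by
    intro m _ f
    have h1 : (u.lTensor (A ⧸ m)) ((f.rTensor F) ρ) = 0 := by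
      rw [← LinearMap.comp_apply, LinearMap.lTensor_comp_rTensor,
        ← LinearMap.rTensor_comp_lTensor, LinearMap.comp_apply, hρ, map_zero]
    have h2 : (f.rTensor F) ρ = 0 := hfib m (by rw [h1, map_zero])
    have h3 : ∀ j, f ⟨a j, ha_mem j⟩ = 0 := by
      intro j
      have := congrArg (fun z => TensorProduct.rid A (A ⧸ m) ((b.coord j).lTensor (A ⧸ m) z)) h2
      simp only [ρ, map_sum, LinearMap.rTensor_tmul, LinearMap.lTensor_tmul,
        TensorProduct.rid_tmul, map_zero, Module.Basis.coord_apply, Module.Basis.repr_self,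
        Finsupp.single_apply] at this
      by_cases hj : j ∈ S
      · rw [Finset.sum_eq_single j] at this
        · simpa using this
        · intro i _ hij
          simp [hij]
        · intro hj'
          exact absurd hj hj'
      · have h0 : (⟨a j, ha_mem j⟩ : 𝔞) = 0 := by
          apply Subtype.ext
          simpa [hS, Finsupp.mem_support_iff, a] using hj
        rw [h0, map_zero]
    -- `f` vanishes on generators
    apply LinearMap.ext
    intro z
    have hz : z ∈ (⊤ : Submodule A 𝔞) := trivial
    have hspan : (⊤ : Submodule A 𝔞) =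
        Submodule.span A ((fun i => (⟨a i, ha_mem i⟩ : 𝔞)) '' (S : Set ι)) := by
      apply Submodule.map_injective_of_injective (Submodule.subtype_injective 𝔞)
      rw [Submodule.map_top, Submodule.range_subtype, Submodule.map_span, ← Set.image_comp]
      rfl
    rw [hspan] at hz
    induction hz using Submodule.span_induction with
    | mem z hz =>
      obtain ⟨i, -, rfl⟩ := hz
      exact h3 i
    | zero => simp
    | add x y _ _ hx hy => simp only [map_add, hx, hy, LinearMap.zero_apply, add_zero]
    | smul c x _ hx => simp only [map_smul, hx, LinearMap.zero_apply, smul_zero]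
  have hsub : Subsingleton 𝔞 :=
    subsingleton_of_forall_top_le_smul_top 𝔞
      (fun m _ => top_le_smul_top_of_forall_dual_eq_zero m 𝔞 (hfun m))
  have hzero : ∀ i, a i = 0 := by
    intro i
    have := Subsingleton.elim (⟨a i, ha_mem i⟩ : 𝔞) 0
    exact congrArg Subtype.val this
  rw [hr_sum]
  exact Finset.sum_eq_zero (fun i _ => by rw [hzero i, zero_smul])

/-- **Fibrewise injective ⇒ universally injective.** -/
theorem baseChange_injective_of_forall_field [Module.Free A F] [Module.Flat A F']
    (u : F →ₗ[A] F') (A' : Type u') [CommRing A'] [Algebra A A']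
    (hfib : ∀ (K : Type u') [Field K] [Algebra A K], Function.Injective (u.baseChange K)) :
    Function.Injective (u.baseChange A') := by
  apply injective_of_forall_maximal (A := A') (u.baseChange A')
  intro m _
  letI : Field (A' ⧸ m) := Ideal.Quotient.field m
  have key := hfib (A' ⧸ m)
  let e := TensorProduct.AlgebraTensorModule.cancelBaseChange A A' (A' ⧸ m) (A' ⧸ m) F
  let e' := TensorProduct.AlgebraTensorModule.cancelBaseChange A A' (A' ⧸ m) (A' ⧸ m) F'
  have hsq : ∀ z, e' ((u.baseChange A').lTensor (A' ⧸ m) z) = (u.baseChange (A' ⧸ m)) (e z) := by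
    intro z
    induction z using TensorProduct.induction_on with
    | zero => simp
    | tmul x y =>
      induction y using TensorProduct.induction_on with
      | zero => simp
      | tmul a f => simp [e, e']
      | add y1 y2 h1 h2 => simp only [TensorProduct.tmul_add, map_add, h1, h2]
    | add x y hx hy => simp only [map_add, hx, hy]
  intro z1 z2 h
  apply e.injective
  apply key
  rw [← hsq, ← hsq, h]

/-- `1 ⊗ x = 0` in `(A ⧸ I) ⊗ M` iff `x ∈ I M`. -/
theorem one_tmul_eq_zero_iff_mem_smul_top (I : Ideal A) (M : Type v) [AddCommGroup M]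
    [Module A M] (x : M) : (1 : A ⧸ I) ⊗ₜ[A] x = 0 ↔ x ∈ (I • ⊤ : Submodule A M) := by
  rw [← (TensorProduct.quotTensorEquivQuotSMul M I).map_eq_zero_iff,
    TensorProduct.quotTensorEquivQuotSMul_mk_one_tmul, Submodule.Quotient.mk_eq_zero]

/-- **Fibrewise injective ⇒ flat cokernel.** -/
theorem flat_coker_of_forall_field [Module.Free A F] [Module.Flat A F'] (u : F →ₗ[A] F')
    (hfib : ∀ (K : Type u) [Field K] [Algebra A K], Function.Injective (u.baseChange K)) :
    Module.Flat A (F' ⧸ LinearMap.range u) := by
  apply H310.flat_quotient_of_inf_smul_le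
  rintro I - y ⟨⟨x, rfl⟩, hyI⟩
  have hinj := baseChange_injective_of_forall_field u (A ⧸ I) hfib
  have h0 : (1 : A ⧸ I) ⊗ₜ[A] (u x) = 0 :=
    (one_tmul_eq_zero_iff_mem_smul_top I F' (u x)).mpr hyI
  have h1 : (1 : A ⧸ I) ⊗ₜ[A] x = 0 := by
    apply hinj
    rw [LinearMap.baseChange_tmul, h0, map_zero]
  have hx : x ∈ (I • ⊤ : Submodule A F) := (one_tmul_eq_zero_iff_mem_smul_top I F x).mp h1
  have hmap : (I • ⊤ : Submodule A F).map u = I • LinearMap.range u := by
    rw [Submodule.map_smul'', Submodule.map_top]
  rw [← hmap]
  exact Submodule.mem_map_of_mem hx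

end Main

end Fermat.Agent.S25.H550
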