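import Fermat.Agent.S25.H11.ACDefs
import Fermat.Agent.S25.H550.FibrewiseInjective
import Fermat.Agent.S25.H550.GDBaseChangeLin
import Fermat.Agent.S25.H747.AbCartier
import Fermat.Agent.S25.H747.CurveCospan
import Fermat.Agent.S25.H86.HomIso
import Fermat.Agent.S25.H565.ChartField

/-!
# S25 / ALGCHARTS shared sub-lemma SH1 (INJ)

For a curve chart `hC`, a gluing datum `G` over any `k`-algebra `A`, and a section
`s ∈ sec x n G` whose second component generates `N₁` modulo `y` (`GenModY y G s.2`), the maps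
`r ↦ r • s.1`, `r ↦ r • s.2`, `r ↦ r • G.r₀ s.1` are injective.

Route: Nakayama gives `u ∈ 1 + (y)` with `u • N₁ ⊆ R₁ • s.2`; `u` is a nonzerodivisor because it is
nonzero in every fibre `(A ⧸ m) ⊗ B₁` (a domain), by `H550.injective_of_forall_maximal`;
invertible modules are faithful.
-/

set_option autoImplicit false
set_option linter.style.haveILetI false
set_option linter.unusedSectionVars false

universe u

open scoped TensorProduct

namespace Fermat.Agent.S25.H550

open Fermat.Agent.S25 Fermat.Agent.S25.H11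

section NZD

variable {k : Type u} [Field k] [IsAlgClosed k] {A : Type u} [CommRing A] [Algebra k A]

/-- `lTensor` of a multiplication map is multiplication by `1 ⊗ u`. -/
theorem lTensor_mulLeft_apply (K : Type u) [CommRing K] [Algebra A K] (R : Type u) [CommRing R]
    [Algebra A R] (u : R) (z : K ⊗[A] R) :
    (LinearMap.mulLeft A u).lTensor K z = ((1 : K) ⊗ₜ[A] u) * z := by
  induction z using TensorProduct.induction_on with
  | zero => simp
  | tmul c r => simp [Algebra.TensorProduct.tmul_mul_tmul]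
  | add a b ha hb => simp only [map_add, ha, hb, mul_add]

/-- The algebra isomorphism `A' ⊗[A] (A ⊗[k] B) ≃ A' ⊗[k] B` sends `1 ⊗ r` to the image of `r`
under `tensorMapLeft`. -/
theorem cancelBaseChange_one_tmul {A' : Type u} [CommRing A'] [Algebra k A'] [Algebra A A']
    [IsScalarTower k A A'] (φ : A →ₐ[k] A') (hφ : ∀ a, φ a = algebraMap A A' a)
    (B : Type u) [CommRing B] [Algebra k B] (r : A ⊗[k] B) :
    Algebra.TensorProduct.cancelBaseChange k A A' A' B ((1 : A') ⊗ₜ[A] r) =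
      tensorMapLeft k φ B r := by
  induction r using TensorProduct.induction_on with
  | zero => simp
  | tmul a b =>
    rw [Algebra.TensorProduct.cancelBaseChange_tmul]
    show (a • (1 : A')) ⊗ₜ[k] b = (Algebra.TensorProduct.map φ (AlgHom.id k B)) (a ⊗ₜ[k] b)
    rw [Algebra.TensorProduct.map_tmul, hφ, Algebra.smul_def, mul_one]
    rfl
  | add x y hx hy =>
    rw [TensorProduct.tmul_add, map_add, map_add, hx, hy]

/-- **Nonzerodivisors by fibres.**  An element of `A ⊗ B` (`B` a domain over the algebraically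
closed field `k`) which is nonzero in every closed fibre `(A ⧸ m) ⊗ B` is a nonzerodivisor. -/
theorem mul_left_injective_of_fibres (B : Type u) [CommRing B] [Algebra k B] [IsDomain B]
    (u : A ⊗[k] B)
    (hu : ∀ (m : Ideal A) [m.IsMaximal], tensorMapLeft k (Ideal.Quotient.mkₐ k m) B u ≠ 0) :
    Function.Injective (fun r : A ⊗[k] B => u * r) := by
  have h := injective_of_forall_maximal (A := A) (LinearMap.mulLeft A u) (fun m _ => ?_)
  · exact h
  letI : Field (A ⧸ m) := Ideal.Quotient.field m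
  haveI : IsDomain ((A ⧸ m) ⊗[k] B) := H567.isDomain_tensorProduct_of_isAlgClosed k (A ⧸ m) B
  let E := Algebra.TensorProduct.cancelBaseChange k A (A ⧸ m) (A ⧸ m) B
  have hE : E ((1 : A ⧸ m) ⊗ₜ[A] u) = tensorMapLeft k (Ideal.Quotient.mkₐ k m) B u :=
    cancelBaseChange_one_tmul (Ideal.Quotient.mkₐ k m) (fun _ => rfl) B u
  intro z₁ z₂ hz
  rw [lTensor_mulLeft_apply, lTensor_mulLeft_apply] at hz
  have hz' := congrArg E hz
  rw [map_mul, map_mul, hE] at hz'
  exact E.injective (mul_left_cancel₀ (hu m) hz')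

end NZD

section Inj

variable {k : Type u} [Field k] [IsAlgClosed k]
  {B₀ B₁ B₀₁ : Type u} [CommRing B₀] [CommRing B₁] [CommRing B₀₁]
  [Algebra k B₀] [Algebra k B₁] [Algebra k B₀₁] [Algebra B₀ B₀₁] [Algebra B₁ B₀₁]
  [IsScalarTower k B₀ B₀₁] [IsScalarTower k B₁ B₀₁]
  {x : B₀} {y : B₁} {e : B₁ →ₐ[k] k}
  {A : Type u} [CommRing A] [Algebra k A]

omit [IsAlgClosed k] in
/-- **Nakayama.**  If `b` generates `N₁` modulo `y`, some `u ∈ 1 + (y)` maps `N₁` into
`R₁ • b`. -/
theorem exists_smul_eq_of_genModY (G : CurveGD k B₀ B₁ B₀₁ A) (b : G.N₁)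
    (hgen : GenModY y G b) :
    ∃ u : A ⊗[k] B₁, u - 1 ∈ Ideal.span {yElt k A y} ∧
      ∀ c : G.N₁, ∃ r : A ⊗[k] B₁, u • c = r • b := by
  haveI := G.invertible₁
  have hfg : (⊤ : Submodule (A ⊗[k] B₁) G.N₁).FG := Module.Finite.fg_top
  have hle : (⊤ : Submodule (A ⊗[k] B₁) G.N₁) ≤
      Submodule.span (A ⊗[k] B₁) {b} ⊔ Ideal.span {yElt k A y} • ⊤ := by
    intro c _
    obtain ⟨r, hr⟩ := hgen c
    have hc : c = r • b + (c - r • b) := by abel
    rw [hc]
    exact Submodule.add_mem_sup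
      (Submodule.smul_mem _ _ (Submodule.mem_span_singleton_self b)) hr
  obtain ⟨u, hu1, hu2⟩ :=
    Submodule.exists_sub_one_mem_and_smul_le_of_fg_of_le_sup hfg le_rfl hle
  refine ⟨u, hu1, fun c => ?_⟩
  have hmem : u • c ∈ Submodule.span (A ⊗[k] B₁) {b} :=
    hu2 (Submodule.smul_mem_pointwise_smul c u ⊤ trivial)
  obtain ⟨r, hr⟩ := Submodule.mem_span_singleton.mp hmem
  exact ⟨r, hr.symm⟩

omit [IsAlgClosed k] in
/-- An element of `1 + (y)` is nonzero in every fibre over a nontrivial ring. -/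
theorem tensorMapLeft_ne_zero_of_sub_one_mem (he : e y = 0) (u : A ⊗[k] B₁)
    (hu : u - 1 ∈ Ideal.span {yElt k A y}) {K : Type u} [CommRing K] [Nontrivial K]
    [Algebra k K] (φ : A →ₐ[k] K) : tensorMapLeft k φ B₁ u ≠ 0 := by
  intro h0
  obtain ⟨c, hc⟩ := Ideal.mem_span_singleton'.mp hu
  have hu' : u = 1 + c * yElt k A y := by rw [hc]; ring
  have hy : tensorMapLeft k φ B₁ (yElt k A y) = yElt k K y := by
    show (Algebra.TensorProduct.map φ (AlgHom.id k B₁)) ((1 : A) ⊗ₜ[k] y) = _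
    rw [Algebra.TensorProduct.map_tmul, map_one]
    rfl
  have hey : epsHom e K (yElt k K y) = 0 := by
    show epsHom e K ((1 : K) ⊗ₜ[k] y) = 0
    simp [epsHom, he]
  have h1 := congrArg (epsHom e K) h0
  rw [hu', map_add, map_mul, map_one, hy, map_add, map_mul, map_one, hey, mul_zero, add_zero,
    map_zero] at h1
  exact one_ne_zero h1

/-- **SH1 (INJ), chart 1.**  A section of `N₁` generating modulo `y` is a nonzerodivisor. -/
theorem smul_injective₁ (hC : IsCurveChart k B₀ B₁ B₀₁ x y e) (G : CurveGD k B₀ B₁ B₀₁ A)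
    (b : G.N₁) (hgen : GenModY y G b) :
    Function.Injective (fun r : A ⊗[k] B₁ => r • b) := by
  haveI := G.invertible₁
  haveI := hC.isDomain₁
  obtain ⟨u, hu1, hu2⟩ := exists_smul_eq_of_genModY G b hgen
  have hnzd := mul_left_injective_of_fibres (A := A) B₁ u (fun m _ =>
    letI : Field (A ⧸ m) := Ideal.Quotient.field m
    tensorMapLeft_ne_zero_of_sub_one_mem hC.e_y u hu1 (Ideal.Quotient.mkₐ k m))
  intro r₁ r₂ h
  have h0 : (r₁ - r₂) • b = 0 := by
    rw [sub_smul]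
    exact sub_eq_zero.mpr h
  have hall : ∀ c : G.N₁, (u * (r₁ - r₂)) • c = (0 : A ⊗[k] B₁) • c := by
    intro c
    obtain ⟨r', hr'⟩ := hu2 c
    rw [zero_smul, mul_comm, mul_smul, hr', smul_comm, h0, smul_zero]
  have hmul : u * (r₁ - r₂) = 0 := FaithfulSMul.eq_of_smul_eq_smul hall
  have : r₁ - r₂ = 0 := hnzd (by simpa using hmul)
  exact sub_eq_zero.mp this

omit [IsAlgClosed k] in
/-- `tensorMapLeft` is compatible with the maps `A ⊗ B₁ → A ⊗ B₀₁`. -/
theorem tensorMapLeft_algebraMap_tensor {A' : Type u} [CommRing A'] [Algebra k A']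
    (φ : A →ₐ[k] A') (B B' : Type u) [CommRing B] [CommRing B'] [Algebra k B] [Algebra k B']
    [Algebra B B'] [IsScalarTower k B B'] (r : A ⊗[k] B) :
    tensorMapLeft k φ B' (algebraMap (A ⊗[k] B) (A ⊗[k] B') r) =
      algebraMap (A' ⊗[k] B) (A' ⊗[k] B') (tensorMapLeft k φ B r) := by
  induction r using TensorProduct.induction_on with
  | zero => simp
  | tmul a b =>
    rw [H747.algebraMap_tensor_apply]
    show (Algebra.TensorProduct.map φ (AlgHom.id k B')) (a ⊗ₜ[k] algebraMap B B' b) =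
      algebraMap (A' ⊗[k] B) (A' ⊗[k] B')
        ((Algebra.TensorProduct.map φ (AlgHom.id k B)) (a ⊗ₜ[k] b))
    rw [Algebra.TensorProduct.map_tmul, Algebra.TensorProduct.map_tmul,
      H747.algebraMap_tensor_apply]
    rfl
  | add a b ha hb => rw [map_add, map_add, map_add, map_add, ha, hb]

/-- **SH1 (INJ), overlap.**  The restriction to the overlap of a section of `N₁` generating
modulo `y` is a nonzerodivisor. -/
theorem smul_injective₀₁ (hC : IsCurveChart k B₀ B₁ B₀₁ x y e) (G : CurveGD k B₀ B₁ B₀₁ A)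
    (b : G.N₁) (hgen : GenModY y G b) :
    Function.Injective (fun r : A ⊗[k] B₀₁ => r • G.r₁ b) := by
  haveI := H86.invertible₀₁ G
  haveI := hC.isDomain₀
  haveI := hC.away₀
  haveI : IsDomain B₀₁ := IsLocalization.isDomain_of_le_nonZeroDivisors B₀₁
    (powers_le_nonZeroDivisors_of_noZeroDivisors (H747.chart_x_ne_zero hC))
  obtain ⟨u, hu1, hu2⟩ := exists_smul_eq_of_genModY G b hgen
  have hnzd := mul_left_injective_of_fibres (A := A) B₀₁
    (algebraMap (A ⊗[k] B₁) (A ⊗[k] B₀₁) u) (fun m _ => by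
      letI : Field (A ⧸ m) := Ideal.Quotient.field m
      rw [tensorMapLeft_algebraMap_tensor]
      intro h0
      have hinj := H747.algebraMap_tensor_injective (k := k) (A ⧸ m) B₁ B₀₁
        (H747.chart_injective₁ hC)
      exact tensorMapLeft_ne_zero_of_sub_one_mem hC.e_y u hu1 (Ideal.Quotient.mkₐ k m)
        (hinj (by rw [h0, map_zero])))
  intro r₁ r₂ h
  have h0 : (r₁ - r₂) • G.r₁ b = 0 := by
    rw [sub_smul]
    exact sub_eq_zero.mpr h
  have hall : ∀ c : G.N₀₁, (algebraMap (A ⊗[k] B₁) (A ⊗[k] B₀₁) u * (r₁ - r₂)) • c =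
      (0 : A ⊗[k] B₀₁) • c := by
    intro c
    rw [zero_smul]
    induction c using G.isBaseChange₁.inductionOn with
    | zero => rw [smul_zero]
    | tmul c =>
      obtain ⟨r', hr'⟩ := hu2 c
      rw [mul_comm, mul_smul, algebraMap_smul, ← map_smul, hr', map_smul,
        ← algebraMap_smul (A ⊗[k] B₀₁) r' (G.r₁ b), smul_comm, h0, smul_zero]
    | smul s c hc => rw [smul_comm, hc, smul_zero]
    | add c₁ c₂ h₁ h₂ => rw [smul_add, h₁, h₂, add_zero]
  have hmul : algebraMap (A ⊗[k] B₁) (A ⊗[k] B₀₁) u * (r₁ - r₂) = 0 :=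
    FaithfulSMul.eq_of_smul_eq_smul hall
  have : r₁ - r₂ = 0 := hnzd (by simpa using hmul)
  exact sub_eq_zero.mp this

omit [IsAlgClosed k] in
/-- `1 ⊗ x` is a unit of `A ⊗ B₀₁`. -/
theorem isUnit_xElt (hC : IsCurveChart k B₀ B₁ B₀₁ x y e) :
    IsUnit (xElt k B₀₁ A x) := by
  refine IsUnit.of_mul_eq_one ((1 : A) ⊗ₜ[k] algebraMap B₁ B₀₁ y) ?_
  show ((1 : A) ⊗ₜ[k] algebraMap B₀ B₀₁ x) * ((1 : A) ⊗ₜ[k] algebraMap B₁ B₀₁ y) = 1
  rw [Algebra.TensorProduct.tmul_mul_tmul, hC.mul_eq_one, mul_one]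
  rfl

/-- **SH1 (INJ), overlap, for a section of `G(n E₀)`.** -/
theorem sec_smul_injective₀₁ (hC : IsCurveChart k B₀ B₁ B₀₁ x y e)
    (G : CurveGD k B₀ B₁ B₀₁ A) (n : ℕ) (s : G.N₀ × G.N₁) (hs : s ∈ sec x n G)
    (hgen : GenModY y G s.2) :
    Function.Injective (fun r : A ⊗[k] B₀₁ => r • G.r₀ s.1) := by
  have hu : IsUnit (xElt k B₀₁ A x ^ n) := (isUnit_xElt hC).pow n
  intro r₁ r₂ h
  simp only [mem_sec.mp hs, ← mul_smul] at h
  have := smul_injective₀₁ hC G s.2 hgen h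
  exact hu.mul_left_injective this

/-- **SH1 (INJ), chart 0, for a section of `G(n E₀)`.** -/
theorem sec_smul_injective₀ (hC : IsCurveChart k B₀ B₁ B₀₁ x y e)
    (G : CurveGD k B₀ B₁ B₀₁ A) (n : ℕ) (s : G.N₀ × G.N₁) (hs : s ∈ sec x n G)
    (hgen : GenModY y G s.2) :
    Function.Injective (fun r : A ⊗[k] B₀ => r • s.1) := by
  intro r₁ r₂ h
  have h1 : G.r₀ (r₁ • s.1) = G.r₀ (r₂ • s.1) := congrArg G.r₀ h
  rw [map_smul, map_smul, ← algebraMap_smul (A ⊗[k] B₀₁) r₁ (G.r₀ s.1),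
    ← algebraMap_smul (A ⊗[k] B₀₁) r₂ (G.r₀ s.1)] at h1
  have h2 := sec_smul_injective₀₁ hC G n s hs hgen h1
  exact H747.algebraMap_tensor_injective (k := k) A B₀ B₀₁ (H747.chart_injective₀ hC) h2

/-- **SH1 (INJ), chart 1, for a section of `G(n E₀)`.** -/
theorem sec_smul_injective₁ (hC : IsCurveChart k B₀ B₁ B₀₁ x y e)
    (G : CurveGD k B₀ B₁ B₀₁ A) (s : G.N₀ × G.N₁) (hgen : GenModY y G s.2) :
    Function.Injective (fun r : A ⊗[k] B₁ => r • s.2) :=
  smul_injective₁ hC G s.2 hgen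

end Inj

end Fermat.Agent.S25.H550
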