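import Mathlib

/-!
# S25 / block CECH / leaf E3: Cayley–Hamilton for finitely generated projective modules

`Q` a finitely generated projective `A`-module of constant rank `g` (all `Module.rankAtStalk`
equal to `g`), `x` an `A`-linear endomorphism of `Q`. Then there is a monic polynomial of degree
`g` over `A` which kills `x`.
-/

set_option autoImplicit false

namespace Fermat.Agent.S25.H550

open Polynomial TensorProduct

section Free

variable {R : Type*} [CommRing R] [Nontrivial R]
variable {F Q : Type*} [AddCommGroup F] [Module R F] [Module.Free R F] [Module.Finite R F]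
  [AddCommGroup Q] [Module R Q] [Module.Free R Q] [Module.Finite R Q]

/-- Rectangular `charpoly (AB)` versus `charpoly (BA)` for linear maps between finite free
modules. -/
theorem charpoly_comp_comm' (a : Q →ₗ[R] F) (b : F →ₗ[R] Q) :
    X ^ Module.finrank R Q * (a ∘ₗ b).charpoly = X ^ Module.finrank R F * (b ∘ₗ a).charpoly := by
  classical
  let bF := Module.Free.chooseBasis R F
  let bQ := Module.Free.chooseBasis R Q
  have h := Matrix.charpoly_mul_comm' (LinearMap.toMatrix bQ bF a) (LinearMap.toMatrix bF bQ b)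
  rw [← LinearMap.toMatrix_comp bF bQ bF a b, ← LinearMap.toMatrix_comp bQ bF bQ b a,
    LinearMap.charpoly_toMatrix, LinearMap.charpoly_toMatrix,
    ← Module.finrank_eq_card_chooseBasisIndex, ← Module.finrank_eq_card_chooseBasisIndex] at h
  exact h

end Free

section Local

attribute [local instance] Module.free_of_flat_of_isLocalRing

variable {A : Type*} [CommRing A]
variable {Q : Type*} [AddCommGroup Q] [Module A Q] [Module.Finite A Q] [Module.Projective A Q]

/-- Local computation: after base change to the local ring `A_𝔪`, the characteristic polynomial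
of `s ∘ x ∘ f` on `Aⁿ` is `X^(n-g)` times that of `x`. -/
theorem charpoly_split_local (x : Q →ₗ[A] Q) (g : ℕ)
    (hg : ∀ p : PrimeSpectrum A, Module.rankAtStalk Q p = g)
    {n : ℕ} (f : (Fin n → A) →ₗ[A] Q) (s : Q →ₗ[A] (Fin n → A)) (hfs : f ∘ₗ s = .id)
    (𝔪 : Ideal A) [h𝔪 : 𝔪.IsPrime] :
    g ≤ n ∧ (s ∘ₗ x ∘ₗ f).charpoly.map (algebraMap A (Localization.AtPrime 𝔪)) =
      X ^ (n - g) * (x.baseChange (Localization.AtPrime 𝔪)).charpoly := by
  classical
  have : Nontrivial A :=
    ⟨⟨0, 1, fun h => h𝔪.ne_top ((Ideal.eq_top_iff_one 𝔪).mpr (h ▸ 𝔪.zero_mem))⟩⟩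
  set Am := Localization.AtPrime 𝔪 with hAm
  have hrankQ : Module.finrank Am (Am ⊗[A] Q) = g := by
    rw [← Module.rankAtStalk_eq_finrank_tensorProduct (M := Q) ⟨𝔪, h𝔪⟩]
    exact hg _
  have hrankF : Module.finrank Am (Am ⊗[A] (Fin n → A)) = n := by
    rw [Module.finrank_baseChange]; simp
  have hfs' : f.baseChange Am ∘ₗ s.baseChange Am = .id := by
    rw [← LinearMap.baseChange_comp, hfs, LinearMap.baseChange_id]
  have hinj : Function.Injective (s.baseChange Am) :=
    LinearMap.injective_of_comp_eq_id _ _ hfs'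
  have hle : g ≤ n := by
    have := LinearMap.finrank_le_finrank_of_injective hinj
    rwa [hrankQ, hrankF] at this
  refine ⟨hle, ?_⟩
  have h1 := charpoly_comp_comm' (R := Am) (s.baseChange Am)
    (x.baseChange Am ∘ₗ f.baseChange Am)
  rw [hrankQ, hrankF] at h1
  have h2 : s.baseChange Am ∘ₗ (x.baseChange Am ∘ₗ f.baseChange Am) =
      (s ∘ₗ x ∘ₗ f).baseChange Am := by
    rw [LinearMap.baseChange_comp, LinearMap.baseChange_comp]
  have h3 : (x.baseChange Am ∘ₗ f.baseChange Am) ∘ₗ s.baseChange Am = x.baseChange Am := by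
    rw [LinearMap.comp_assoc, hfs', LinearMap.comp_id]
  rw [h2, h3, LinearMap.charpoly_baseChange] at h1
  have h4 : (X : Am[X]) ^ n = X ^ g * X ^ (n - g) := by
    rw [← pow_add, Nat.add_sub_cancel' hle]
  rw [h4, mul_assoc] at h1
  exact (isRegular_X_pow g).left h1

/-- **Leaf E3.** Cayley–Hamilton for a finitely generated projective module of constant rank
`g`: every endomorphism is killed by a monic polynomial of degree `g`. -/
theorem exists_monic_natDegree_eq_aeval_eq_zero [Nontrivial A] (x : Q →ₗ[A] Q) (g : ℕ)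
    (hg : ∀ p : PrimeSpectrum A, Module.rankAtStalk Q p = g) :
    ∃ P : A[X], P.Monic ∧ P.natDegree = g ∧ aeval x P = 0 := by
  classical
  obtain ⟨n, f, s, -, -, hfs⟩ := Module.Finite.exists_comp_eq_id_of_projective A Q
  set P₀ : A[X] := (s ∘ₗ x ∘ₗ f).charpoly with hP₀
  have hloc := fun (𝔪 : Ideal A) (h𝔪 : 𝔪.IsPrime) =>
    charpoly_split_local x g hg f s hfs 𝔪
  -- `g ≤ n`
  obtain ⟨𝔪₀, h𝔪₀⟩ := Ideal.exists_maximal A
  have hle : g ≤ n := (hloc 𝔪₀ h𝔪₀.isPrime).1
  set m := n - g with hm
  have hXm : (X ^ m : A[X]).Monic := monic_X_pow m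
  -- the remainder vanishes
  have hrem : P₀ %ₘ X ^ m = 0 := by
    ext i
    rw [coeff_zero]
    refine eq_zero_of_localization _ fun J hJ => ?_
    have h := (hloc J hJ.isPrime).2
    rw [← coeff_map, map_modByMonic _ hXm, Polynomial.map_pow, map_X, h]
    rw [(modByMonic_eq_zero_iff_dvd (monic_X_pow m)).mpr (dvd_mul_right _ _), coeff_zero]
  have hdiv : P₀ = X ^ m * (P₀ /ₘ X ^ m) := by
    have := modByMonic_add_div P₀ (X ^ m)
    rw [hrem, zero_add] at this
    exact this.symm
  set P := P₀ /ₘ X ^ m with hP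
  have hP₀monic : P₀.Monic := LinearMap.charpoly_monic _
  have hPmonic : P.Monic := hXm.of_mul_monic_left (hdiv ▸ hP₀monic)
  have hdeg : P.natDegree = g := by
    have h1 : P₀.natDegree = n := by
      rw [hP₀, LinearMap.charpoly_natDegree]; simp
    have h2 : P₀.natDegree = m + P.natDegree := by
      conv_lhs => rw [hdiv]
      rw [hXm.natDegree_mul hPmonic, natDegree_X_pow]
    omega
  refine ⟨P, hPmonic, hdeg, ?_⟩
  -- vanishing is checked locally
  have hPloc : ∀ (J : Ideal A) (hJ : J.IsMaximal),
      P.map (algebraMap A (Localization.AtPrime J)) =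
        (x.baseChange (Localization.AtPrime J)).charpoly := by
    intro J hJ
    have h := (hloc J hJ.isPrime).2
    rw [← hP₀, hdiv, Polynomial.map_mul, Polynomial.map_pow, map_X] at h
    exact (isRegular_X_pow m).left h
  ext q
  rw [LinearMap.zero_apply]
  refine Module.eq_zero_of_localization_maximal
    (fun J _ => Localization.AtPrime J ⊗[A] Q)
    (fun J _ => TensorProduct.mk A (Localization.AtPrime J) Q 1) _ fun J hJ => ?_
  have h1 : (TensorProduct.mk A (Localization.AtPrime J) Q 1) ((aeval x P) q) =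
      ((aeval x P).baseChange (Localization.AtPrime J)) ((1 : Localization.AtPrime J) ⊗ₜ q) := by
    rw [LinearMap.baseChange_tmul]; rfl
  have h2 : (aeval x P).baseChange (Localization.AtPrime J) =
      aeval (x.baseChange (Localization.AtPrime J))
        (P.map (algebraMap A (Localization.AtPrime J))) := by
    rw [aeval_map_algebraMap]
    exact (aeval_algHom_apply (Module.End.baseChangeHom A (Localization.AtPrime J) Q) x P).symm
  rw [h1, h2, hPloc J hJ, LinearMap.aeval_self_charpoly, LinearMap.zero_apply]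

/-- **Leaf E3**, relation form (valid also over the zero ring): `x ^ g` is an `A`-linear
combination of `1, x, …, x ^ (g - 1)`. -/
theorem exists_pow_add_sum_smul_pow_eq_zero (x : Q →ₗ[A] Q) (g : ℕ)
    (hg : ∀ p : PrimeSpectrum A, Module.rankAtStalk Q p = g) :
    ∃ c : Fin g → A, x ^ g + ∑ i : Fin g, c i • x ^ (i : ℕ) = 0 := by
  classical
  rcases subsingleton_or_nontrivial A with hA | hA
  · have : Subsingleton Q := Module.subsingleton A Q
    exact ⟨fun _ => 0, Subsingleton.elim _ _⟩
  · obtain ⟨P, hPm, hPd, hPx⟩ := exists_monic_natDegree_eq_aeval_eq_zero x g hg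
    refine ⟨fun i => P.coeff i, ?_⟩
    have h := hPm.as_sum
    rw [hPd] at h
    rw [h, map_add, map_pow, aeval_X, map_sum] at hPx
    rw [← hPx, Fin.sum_univ_eq_sum_range (fun i => P.coeff i • x ^ i) g]
    congr 1
    refine Finset.sum_congr rfl fun i _ => ?_
    rw [map_mul, aeval_C, map_pow, aeval_X, Algebra.algebraMap_eq_smul_one, smul_mul_assoc,
      one_mul]

end Local

end Fermat.Agent.S25.H550
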