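import Mathlib

/-!
# S25 / block CECH / leaf E1: the Čech `H¹` of a two-chart gluing datum is finitely generated

Core statement (`cech_h1_finite`), in "endomorphism" form so that it can be instantiated for any
presentation of the two charts:

* `N0`, `N1`, `N01` are `A`-modules, `x0` ("multiplication by `X`") is an `A`-linear endomorphism
  of `N0`, `y1` ("multiplication by `Y = X⁻¹`") one of `N1`, and `t` ("multiplication by `X`")
  is an `A`-linear automorphism of `N01`;
* `r0 : N0 → N01`, `r1 : N1 → N01` are the restriction maps, compatible with `x0`, `y1`, `t`;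
* `N0` is generated over `A` by the `x0`-orbits of finitely many elements;
* every element of `N01` is `t⁻ᵏ r0 n` for some `k`, `n` and `tᵏ r1 n` for some `k`, `n`
  (the surjectivity half of "`N01` is the localisation of `N0` at `X` and of `N1` at `Y`").

Then `N01 ⧸ (r0 N0 + r1 N1)` is a finitely generated `A`-module.
-/

set_option autoImplicit false

namespace Fermat.Agent.S25.H550

open Submodule

section Core

variable {A : Type*} [CommRing A]
variable {N0 N1 N01 : Type*} [AddCommGroup N0] [Module A N0] [AddCommGroup N1] [Module A N1]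
  [AddCommGroup N01] [Module A N01]

/-- `r0 (x0ᵏ n) = tᵏ (r0 n)`. -/
theorem r0_pow_apply (x0 : N0 →ₗ[A] N0) (t : N01 ≃ₗ[A] N01) (r0 : N0 →ₗ[A] N01)
    (hr0 : ∀ n, r0 (x0 n) = t (r0 n)) (k : ℕ) (n : N0) :
    r0 ((x0 ^ k) n) = (t ^ k) (r0 n) := by
  induction k generalizing n with
  | zero => simp
  | succ k ih =>
    rw [pow_succ, Module.End.mul_apply, ih, hr0, pow_succ]
    rfl

/-- `tᵏ (r1 (y1ᵏ n)) = r1 n`. -/
theorem r1_pow_apply (y1 : N1 →ₗ[A] N1) (t : N01 ≃ₗ[A] N01) (r1 : N1 →ₗ[A] N01)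
    (hr1 : ∀ n, t (r1 (y1 n)) = r1 n) (k : ℕ) (n : N1) :
    (t ^ k) (r1 ((y1 ^ k) n)) = r1 n := by
  induction k generalizing n with
  | zero => simp
  | succ k ih =>
    rw [pow_succ t, pow_succ' y1]
    change (t ^ k) (t (r1 (y1 ((y1 ^ k) n)))) = r1 n
    rw [hr1, ih]

/-- `r1 (y1ᵏ n) = t⁻ᵏ (r1 n)`. -/
theorem r1_pow_apply' (y1 : N1 →ₗ[A] N1) (t : N01 ≃ₗ[A] N01) (r1 : N1 →ₗ[A] N01)
    (hr1 : ∀ n, t (r1 (y1 n)) = r1 n) (k : ℕ) (n : N1) :
    r1 ((y1 ^ k) n) = (t ^ (-(k : ℤ))) (r1 n) := by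
  have h := r1_pow_apply y1 t r1 hr1 k n
  rw [← h, ← LinearEquiv.mul_apply, ← zpow_natCast, ← zpow_add]
  simp

/-- **Leaf E1** (core form). The Čech `H¹ = N01 ⧸ (r0 N0 + r1 N1)` of a two-chart gluing datum
is a finitely generated `A`-module. -/
theorem cech_h1_finite (x0 : N0 →ₗ[A] N0) (y1 : N1 →ₗ[A] N1) (t : N01 ≃ₗ[A] N01)
    (r0 : N0 →ₗ[A] N01) (r1 : N1 →ₗ[A] N01)
    (hr0 : ∀ n, r0 (x0 n) = t (r0 n))
    (hr1 : ∀ n, t (r1 (y1 n)) = r1 n)
    (S0 : Finset N0)
    (hS0 : span A {m : N0 | ∃ s ∈ S0, ∃ k : ℕ, m = (x0 ^ k) s} = ⊤)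
    (h0 : ∀ z : N01, ∃ (k : ℕ) (n : N0), (t ^ k) z = r0 n)
    (h1 : ∀ z : N01, ∃ (k : ℕ) (n : N1), z = (t ^ k) (r1 n)) :
    Module.Finite A (N01 ⧸ (LinearMap.range r0 ⊔ LinearMap.range r1)) := by
  classical
  set P : Submodule A N01 := LinearMap.range r0 ⊔ LinearMap.range r1 with hP
  have hch : ∀ s : N0, ∃ (k : ℕ) (n : N1), r0 s = (t ^ k) (r1 n) := fun s => h1 (r0 s)
  choose ks ns hks using hch
  let D : ℕ := S0.sup ks
  let G : Finset N01 :=
    (S0 ×ˢ Finset.range D).image (fun q => (t ^ (-(q.2 : ℤ))) (r0 q.1))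
  have key : ∀ s ∈ S0, ∀ e : ℤ, (t ^ e) (r0 s) ∈ span A (G : Set N01) ⊔ P := by
    intro s hs e
    rcases le_or_gt 0 e with he | he
    · lift e to ℕ using he
      refine mem_sup_right (mem_sup_left ⟨(x0 ^ e) s, ?_⟩)
      rw [r0_pow_apply x0 t r0 hr0, zpow_natCast]
    · obtain ⟨m, rfl⟩ : ∃ m : ℕ, e = -(m : ℤ) := ⟨e.natAbs, by omega⟩
      by_cases hm : m < D
      · refine mem_sup_left (subset_span ?_)
        simp only [G, Finset.coe_image, Set.mem_image, Finset.mem_coe, Finset.mem_product,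
          Finset.mem_range]
        exact ⟨(s, m), ⟨hs, hm⟩, rfl⟩
      · have hk : ks s ≤ m := le_trans (Finset.le_sup (f := ks) hs) (not_lt.mp hm)
        refine mem_sup_right (mem_sup_right ⟨(y1 ^ (m - ks s)) (ns s), ?_⟩)
        rw [r1_pow_apply' y1 t r1 hr1, hks s, ← LinearEquiv.mul_apply, ← zpow_natCast,
          ← zpow_add]
        congr 2
        omega
  have gen : ∀ (k : ℕ) (n : N0), (t ^ (-(k : ℤ))) (r0 n) ∈ span A (G : Set N01) ⊔ P := by
    intro k n
    have hn : n ∈ span A {m : N0 | ∃ s ∈ S0, ∃ k : ℕ, m = (x0 ^ k) s} := by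
      rw [hS0]; trivial
    induction hn using Submodule.span_induction with
    | mem n hn =>
      obtain ⟨s, hs, j, rfl⟩ := hn
      rw [r0_pow_apply x0 t r0 hr0, ← zpow_natCast, ← LinearEquiv.mul_apply, ← zpow_add]
      exact key s hs _
    | zero => simp
    | add a b _ _ ha hb =>
      rw [map_add, map_add]
      exact add_mem ha hb
    | smul c a _ ha =>
      rw [map_smul, map_smul]
      exact smul_mem _ c ha
  have htop : span A (G : Set N01) ⊔ P = ⊤ := by
    rw [eq_top_iff]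
    intro z _
    obtain ⟨k, n, hz⟩ := h0 z
    have hz' : z = (t ^ (-(k : ℤ))) (r0 n) := by
      rw [← hz, ← LinearEquiv.mul_apply, ← zpow_natCast, ← zpow_add]
      simp
    rw [hz']
    exact gen k n
  refine ⟨⟨G.image (mkQ P), ?_⟩⟩
  rw [Finset.coe_image, ← Submodule.map_span, eq_top_iff]
  rintro y -
  obtain ⟨z, rfl⟩ := mkQ_surjective P y
  have hzmem : z ∈ span A (G : Set N01) ⊔ P := by rw [htop]; trivial
  obtain ⟨g, hg, q, hq, rfl⟩ := mem_sup.mp hzmem
  refine ⟨g, hg, ?_⟩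
  rw [map_add, Submodule.mkQ_apply P q, (Submodule.Quotient.mk_eq_zero P).mpr hq, add_zero]

end Core

section Poly

open Polynomial LaurentPolynomial

variable {A : Type*} [CommRing A]

/-- If finitely many elements generate `N` over `A[X]`, then their `X`-orbits generate `N`
over `A`. -/
theorem span_orbit_eq_top {N : Type*} [AddCommGroup N] [Module A N] [Module A[X] N]
    [IsScalarTower A A[X] N] (S : Set N) (hS : span A[X] S = ⊤) :
    span A {m : N | ∃ s ∈ S, ∃ k : ℕ, m = ((X : A[X]) ^ k) • s} = ⊤ := by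
  set M : Submodule A N := span A {m : N | ∃ s ∈ S, ∃ k : ℕ, m = ((X : A[X]) ^ k) • s} with hM
  have hX : ∀ m ∈ M, (X : A[X]) • m ∈ M := by
    intro m hm
    induction hm using Submodule.span_induction with
    | mem m hm =>
      obtain ⟨s, hs, k, rfl⟩ := hm
      refine subset_span ⟨s, hs, k + 1, ?_⟩
      rw [pow_succ', mul_smul]
    | zero => simp
    | add a b _ _ ha hb => rw [smul_add]; exact add_mem ha hb
    | smul c a _ ha => rw [smul_comm]; exact smul_mem _ c ha
  have hXk : ∀ (k : ℕ), ∀ m ∈ M, ((X : A[X]) ^ k) • m ∈ M := by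
    intro k
    induction k with
    | zero => intro m hm; simpa using hm
    | succ k ih => intro m hm; rw [pow_succ', mul_smul]; exact hX _ (ih m hm)
  have hp : ∀ (p : A[X]), ∀ m ∈ M, p • m ∈ M := by
    intro p m hm
    induction p using Polynomial.induction_on' with
    | add p q hp hq => rw [add_smul]; exact add_mem hp hq
    | monomial k a =>
      rw [← Polynomial.C_mul_X_pow_eq_monomial, mul_smul, ← Polynomial.algebraMap_eq,
        algebraMap_smul]
      exact smul_mem _ a (hXk k m hm)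
  let M' : Submodule A[X] N :=
    { carrier := M
      add_mem' := fun ha hb => add_mem ha hb
      zero_mem' := zero_mem M
      smul_mem' := fun p m hm => hp p m hm }
  have hSM : S ⊆ (M' : Set N) := fun s hs => subset_span ⟨s, hs, 0, by simp⟩
  have htop : M' = ⊤ := by
    rw [eq_top_iff, ← hS]
    exact span_le.mpr hSM
  rw [eq_top_iff]
  intro n _
  have : n ∈ M' := by rw [htop]; trivial
  exact this

/-- **Leaf E1** (polynomial form). `N0` is a finite `A[X]`-module, `N1` an `A[Y]`-module (we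
write `A[X]` for `A[Y]`), `N01` an `A[T;T⁻¹]`-module, `r0`/`r1` are `A`-linear and semilinear
along `X ↦ T` resp. `Y ↦ T⁻¹`, and every element of `N01` is of the form `T⁻ᵏ • r0 n` and of
the form `Tᵏ • r1 n`. Then `N01 ⧸ (r0 N0 + r1 N1)` is a finitely generated `A`-module. -/
theorem cech_h1_finite_poly
    {N0 N1 N01 : Type*}
    [AddCommGroup N0] [Module A N0] [Module A[X] N0] [IsScalarTower A A[X] N0]
    [Module.Finite A[X] N0]
    [AddCommGroup N1] [Module A N1] [Module A[X] N1] [IsScalarTower A A[X] N1]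
    [AddCommGroup N01] [Module A N01] [Module A[T;T⁻¹] N01] [IsScalarTower A A[T;T⁻¹] N01]
    (r0 : N0 →ₗ[A] N01) (r1 : N1 →ₗ[A] N01)
    (hr0 : ∀ n, r0 ((X : A[X]) • n) = (T 1 : A[T;T⁻¹]) • r0 n)
    (hr1 : ∀ n, r1 ((X : A[X]) • n) = (T (-1) : A[T;T⁻¹]) • r1 n)
    (h0 : ∀ z : N01, ∃ (k : ℕ) (n : N0), (T (k : ℤ) : A[T;T⁻¹]) • z = r0 n)
    (h1 : ∀ z : N01, ∃ (k : ℕ) (n : N1), z = (T (k : ℤ) : A[T;T⁻¹]) • r1 n) :
    Module.Finite A (N01 ⧸ (LinearMap.range r0 ⊔ LinearMap.range r1)) := by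
  classical
  -- multiplication by `T` as an `A`-linear automorphism of `N01`
  let t : N01 ≃ₗ[A] N01 :=
    { toFun := fun z => (T 1 : A[T;T⁻¹]) • z
      invFun := fun z => (T (-1) : A[T;T⁻¹]) • z
      map_add' := fun a b => smul_add _ a b
      map_smul' := fun c a => by simp only [RingHom.id_apply]; rw [smul_comm]
      left_inv := fun z => by
        change (T (-1) : A[T;T⁻¹]) • ((T 1 : A[T;T⁻¹]) • z) = z
        rw [← mul_smul, ← T_add]; simp
      right_inv := fun z => by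
        change (T 1 : A[T;T⁻¹]) • ((T (-1) : A[T;T⁻¹]) • z) = z
        rw [← mul_smul, ← T_add]; simp }
  have ht : ∀ z, t z = (T 1 : A[T;T⁻¹]) • z := fun _ => rfl
  have htk : ∀ (k : ℕ) (z : N01), (t ^ k) z = (T (k : ℤ) : A[T;T⁻¹]) • z := by
    intro k
    induction k with
    | zero => intro z; simp
    | succ k ih =>
      intro z
      rw [pow_succ, LinearEquiv.mul_apply, ih, ht, ← mul_smul, ← T_add]
      push_cast
      rfl
  let x0 : N0 →ₗ[A] N0 :=
    { toFun := fun n => (X : A[X]) • n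
      map_add' := fun a b => smul_add _ a b
      map_smul' := fun c a => by simp only [RingHom.id_apply]; rw [smul_comm] }
  let y1 : N1 →ₗ[A] N1 :=
    { toFun := fun n => (X : A[X]) • n
      map_add' := fun a b => smul_add _ a b
      map_smul' := fun c a => by simp only [RingHom.id_apply]; rw [smul_comm] }
  have hx0k : ∀ (k : ℕ) (n : N0), (x0 ^ k) n = ((X : A[X]) ^ k) • n := by
    intro k
    induction k with
    | zero => intro n; simp
    | succ k ih =>
      intro n
      rw [pow_succ', Module.End.mul_apply, ih, pow_succ', mul_smul]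
      rfl
  obtain ⟨S0, hS0⟩ := (Module.Finite.fg_top : (⊤ : Submodule A[X] N0).FG)
  refine cech_h1_finite x0 y1 t r0 r1 (fun n => hr0 n) (fun n => ?_) S0 ?_ (fun z => ?_)
    (fun z => ?_)
  · change (T 1 : A[T;T⁻¹]) • r1 ((X : A[X]) • n) = r1 n
    rw [hr1, ← mul_smul, ← T_add]; simp
  · have := span_orbit_eq_top (A := A) (S0 : Set N0) hS0
    rw [← this]
    congr 1
    ext m
    simp only [Set.mem_ofPred_eq, Finset.mem_coe, hx0k]
  · obtain ⟨k, n, h⟩ := h0 z
    exact ⟨k, n, by rw [htk]; exact h⟩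
  · obtain ⟨k, n, h⟩ := h1 z
    exact ⟨k, n, by rw [htk]; exact h⟩

end Poly

end Fermat.Agent.S25.H550
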