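import Fermat.Agent.S25.H550.DegConst

/-!
# S25 / block DEGREE, leaf D9 (skeleton form): the fibrewise degree is locally constant

* `exists_locallyConstant_euler` : for a gluing datum `G` on `C_A` (any ring `A`) there is a
  locally constant function `PrimeSpectrum A → ℤ` computing the Euler characteristic of every
  base change of `G` to a field.
* `exists_locallyConstant_degree` : the same for the degree (exact statement D9 of
  `H10/DegreeSkel.lean`).
-/

set_option autoImplicit false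
set_option linter.style.haveILetI false

namespace Fermat.Agent.S25.H550

open scoped TensorProduct
open Fermat.Agent.S25 Fermat.Agent.S25.H10

universe u

theorem finrank_tensor_eq_rankAtStalk_ker {A : Type u} [CommRing A] (P : Type u)
    [AddCommGroup P] [Module A P] [Module.Finite A P] [Module.Projective A P]
    (K : Type u) [Field K] [Algebra A K] :
    Module.finrank K (K ⊗[A] P) =
      Module.rankAtStalk P
        (⟨RingHom.ker (algebraMap A K), RingHom.ker_isPrime _⟩ : PrimeSpectrum A) := by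
  have h1 : Module.rankAtStalk (K ⊗[A] P) (⟨⊥, Ideal.isPrime_bot⟩ : PrimeSpectrum K) =
      Module.finrank K (K ⊗[A] P) := by
    rw [Module.rankAtStalk_eq_finrank_of_free]
    rfl
  rw [← h1, Module.rankAtStalk_baseChange]
  rfl

variable {k : Type u} [Field k] {B₀ B₁ B₀₁ : Type u} [CommRing B₀] [CommRing B₁] [CommRing B₀₁]
  [Algebra k B₀] [Algebra k B₁] [Algebra k B₀₁] [Algebra B₀ B₀₁] [Algebra B₁ B₀₁]
  [IsScalarTower k B₀ B₀₁] [IsScalarTower k B₁ B₀₁]
  {x : B₀} {y : B₁} {e : B₁ →ₐ[k] k}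

/-- The Euler characteristic of the fibres is a locally constant function on `Spec A`. -/
theorem exists_locallyConstant_euler (h : IsCurveChart k B₀ B₁ B₀₁ x y e)
    {A : Type u} [CommRing A] [Algebra k A] (G : CurveGD k B₀ B₁ B₀₁ A) :
    ∃ δ : PrimeSpectrum A → ℤ, IsLocallyConstant δ ∧
      ∀ (K : Type u) [Field K] [Algebra k K] (φ : A →ₐ[k] K) (G' : CurveGD k B₀ B₁ B₀₁ K),
        CurveGD.IsBC φ G G' →
          G'.euler = δ ⟨RingHom.ker φ.toRingHom, RingHom.ker_isPrime _⟩ := by
  obtain ⟨m, -, hPfin, hPproj, hQfin, hQproj, huniv⟩ :=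
    exists_finite_model (Fermat.Agent.S25.H250.chartCechOps h G)
      (Fermat.Agent.S25.H250.isFGProj_X0 h G) (Fermat.Agent.S25.H250.isFGProj_Y1 h G)
      (Fermat.Agent.S25.H250.r0_injective h G) (Fermat.Agent.S25.H250.r1_injective h G)
  rw [Fermat.Agent.S25.H250.chartCechOps_d_zero h G] at huniv
  set D := Fermat.Agent.S25.H250.chartCechOps h G with hD
  refine ⟨fun p => (Module.rankAtStalk (D.H0 m) p : ℤ) -
    Module.rankAtStalk (G.N₁ ⧸ LinearMap.range (D.Y1 ^ m)) p, ?_, ?_⟩
  · haveI : Module.FinitePresentation A (D.H0 m) := Module.finitePresentation_of_projective _ _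
    haveI : Module.FinitePresentation A (G.N₁ ⧸ LinearMap.range (D.Y1 ^ m)) :=
      Module.finitePresentation_of_projective _ _
    have h1 : IsLocallyConstant (Module.rankAtStalk (R := A) (D.H0 m)) :=
      Module.isLocallyConstant_rankAtStalk
    have h2 : IsLocallyConstant
        (Module.rankAtStalk (R := A) (G.N₁ ⧸ LinearMap.range (D.Y1 ^ m))) :=
      Module.isLocallyConstant_rankAtStalk
    exact IsLocallyConstant.comp₂ h1 h2 (fun a b : ℕ => (a : ℤ) - b)
  intro K _ _ φ G' hbc
  letI algAK : Algebra A K := φ.toRingHom.toAlgebra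
  haveI : IsScalarTower k A K := IsScalarTower.of_algebraMap_eq (fun r => (φ.commutes r).symm)
  have hφ : ∀ a, φ a = algebraMap A K a := fun _ => rfl
  obtain ⟨⟨k2⟩, ⟨c2⟩⟩ := huniv K
  obtain ⟨E, E₀₁, hE⟩ := exists_cech_baseChange_equiv φ hφ G G' hbc
  obtain ⟨k3⟩ := nonempty_ker_equiv_of_square (R := K) (f := G.cech.baseChange K)
    (f' := G'.cech) E E₀₁.toLinearMap E₀₁.injective hE
  obtain ⟨c3⟩ := nonempty_coker_equiv_of_square (R := K) (f := G.cech.baseChange K)
    (f' := G'.cech) E.toLinearMap E.surjective E₀₁ hE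
  have e0 : Module.finrank K G'.H0 =
      Module.finrank K (LinearMap.ker ((D.δ m).baseChange K)) :=
    (k2.trans k3).finrank_eq.symm
  have e1 : Module.finrank K G'.H1 =
      Module.finrank K ((K ⊗[A] (G.N₁ ⧸ LinearMap.range (D.Y1 ^ m))) ⧸
        LinearMap.range ((D.δ m).baseChange K)) :=
    (c2.trans c3).finrank_eq.symm
  rw [GlueDatum.euler, e0, e1, finrank_ker_sub_finrank_coker,
    finrank_tensor_eq_rankAtStalk_ker, finrank_tensor_eq_rankAtStalk_ker]
  rfl

/-- **D9** (exact statement of `H10/DegreeSkel.lean`). The fibrewise degree is a locally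
constant function on `Spec A`. -/
theorem exists_locallyConstant_degree (hC : IsCurveChart k B₀ B₁ B₀₁ x y e) {A : Type u}
    [CommRing A] [Algebra k A] (G : CurveGD k B₀ B₁ B₀₁ A) :
    ∃ δ : PrimeSpectrum A → ℤ, IsLocallyConstant δ ∧
      ∀ (K : Type u) [Field K] [Algebra k K] (φ : A →ₐ[k] K) (G' : CurveGD k B₀ B₁ B₀₁ K),
        CurveGD.IsBC φ G G' →
          G'.degree = δ ⟨RingHom.ker φ.toRingHom, RingHom.ker_isPrime _⟩ := by
  obtain ⟨δ₁, hδ₁, h₁⟩ := exists_locallyConstant_euler hC G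
  obtain ⟨δ₀, hδ₀, h₀⟩ := exists_locallyConstant_euler hC
    (GlueDatum.unit A (A ⊗[k] B₀) (A ⊗[k] B₁) (A ⊗[k] B₀₁))
  refine ⟨fun p => δ₁ p - δ₀ p, IsLocallyConstant.comp₂ hδ₁ hδ₀ (fun a b : ℤ => a - b), ?_⟩
  intro K _ _ φ G' hbc
  rw [GlueDatum.degree, h₁ K φ G' hbc, h₀ K φ _ (isBC_unit φ)]

end Fermat.Agent.S25.H550
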